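/-
GATE-Z (S15) / [MOD-beta] (T5), PART A (helper37): root-of-unity sums of the functions
`F_n(a) = (a d/da)^n (1/(1-a))` (`= ∑ m^n a^m` formally), Mathlib only.

For a field `K` of characteristic zero, `HS a := (1 - a·exp ε)⁻¹ ∈ K⟦ε⟧` satisfies `H' = H² - H`,
so `Fn n a := n! · coeff_n (HS a)` is the value at `a` of `(a d/da)^n (1/(1-a))`:
`Fn 1 a = a/(1-a)²`, `Fn 3 a = a(1+4a+a²)/(1-a)⁴`, `Fn 5 a = a(1+26a+66a²+26a³+a⁴)/(1-a)⁶`.

* `sum_Fn_distrib` : `ζ` a primitive `p`-th root of unity, `w^p ≠ 1` ⟹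
  `∑_{k<p} Fn n (ζ^k w) = p^(n+1) · Fn n (w^p)` (distribution relation);
* `sum_Fn_roots`  : `∑_{0<k<p} Fn n (ζ^k) = (1 - p^(n+1)) · B⁺_{n+1} / (n+1)` for `n ≥ 1`
  (from Mathlib's `bernoulli'PowerSeries_mul_exp_sub_one`);
* `sum_F3_roots`, `sum_F5_roots` : the constants `(p⁴-1)/120` and `-(p⁶-1)/252` of the Vélu sums.
-/
import Mathlib

set_option autoImplicit false

noncomputable section

open PowerSeries Finset

namespace Fermat.Agent.GZ.Tate.T5.RootSums

variable {K : Type*} [Field K] [CharZero K]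

local notation "E" => PowerSeries.exp K
local notation "D" => PowerSeries.derivative K

/-- `(1 - a·exp ε)⁻¹`. -/
def HS (a : K) : K⟦X⟧ := (1 - C a * E)⁻¹

theorem constantCoeff_base (a : K) : constantCoeff (1 - C a * E) = 1 - a := by
  simp [constantCoeff_exp]

theorem base_mul_HS {a : K} (ha : a ≠ 1) : (1 - C a * E) * HS a = 1 :=
  PowerSeries.mul_inv_cancel _ (by rw [constantCoeff_base]; exact sub_ne_zero.2 (Ne.symm ha))

theorem HS_mul_base {a : K} (ha : a ≠ 1) : HS a * (1 - C a * E) = 1 := by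
  rw [mul_comm]; exact base_mul_HS ha

theorem constantCoeff_HS (a : K) : constantCoeff (HS a) = (1 - a)⁻¹ := by
  rw [HS, constantCoeff_inv, constantCoeff_base]

theorem derivative_base (a : K) : D (1 - C a * E) = (1 - C a * E) - 1 := by
  have h1 : D (C a * E) = C a * E := by
    rw [Derivation.leibniz, derivative_C, derivative_exp]; simp
  rw [map_sub, h1, Derivation.map_one_eq_zero]; ring

/-- the ODE `H' = H² - H`. -/
theorem derivative_HS {a : K} (ha : a ≠ 1) : D (HS a) = HS a ^ 2 - HS a := by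
  have h := base_mul_HS ha
  rw [HS, derivative_inv', derivative_base]
  have h2 : (1 - C a * E)⁻¹ * (1 - C a * E) = 1 := HS_mul_base ha
  linear_combination (-(1 - C a * E)⁻¹) * h2

/-- the universal polynomials `Q_n` with `(a d/da)^n (1/(1-a)) = Q_n (1/(1-a))`. -/
def Q : ℕ → Polynomial K
  | 0 => Polynomial.X
  | n + 1 => (Polynomial.X ^ 2 - Polynomial.X) * Polynomial.derivative (Q n)

theorem iterate_derivative_HS {a : K} (ha : a ≠ 1) (n : ℕ) :
    (⇑(PowerSeries.derivative K))^[n] (HS a) = Polynomial.aeval (HS a) (Q n : Polynomial K) := by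
  induction n with
  | zero => simp [Q]
  | succ n ih =>
    rw [Function.iterate_succ_apply', ih, Derivation.map_aeval, derivative_HS ha, Q]
    simp only [smul_eq_mul, map_mul, map_sub, map_pow, Polynomial.aeval_X]
    ring

/-- `Fn n a = (a d/da)^n (1/(1-a))`, defined through the exponential generating function. -/
def Fn (n : ℕ) (a : K) : K := (n.factorial : K) * coeff n (HS a)

theorem Fn_eq_eval {a : K} (ha : a ≠ 1) (n : ℕ) :
    Fn n a = Polynomial.eval (1 - a)⁻¹ (Q n : Polynomial K) := by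
  have h1 : Fn n a = constantCoeff ((⇑(PowerSeries.derivative K))^[n] (HS a)) := by
    rw [constantCoeff_iterate_derivative, Fn]
  rw [h1, iterate_derivative_HS ha, Polynomial.aeval_def, Polynomial.hom_eval₂,
    constantCoeff_HS]
  have : (constantCoeff (R := K)).comp (algebraMap K K⟦X⟧) = RingHom.id K := by
    ext x; simp
  rw [this, Polynomial.eval₂_id]

theorem Q_one : (Q 1 : Polynomial K) = Polynomial.X ^ 2 - Polynomial.X := by
  simp [Q]

theorem Q_three : (Q 3 : Polynomial K) =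
    6 * Polynomial.X ^ 4 - 12 * Polynomial.X ^ 3 + 7 * Polynomial.X ^ 2 - Polynomial.X := by
  simp only [Q, Polynomial.derivative_mul, Polynomial.derivative_sub, Polynomial.derivative_X_pow,
    Polynomial.derivative_X, Polynomial.derivative_one, Polynomial.derivative_add]
  simp
  have h2 : (Polynomial.C (2 : K)) = 2 := map_ofNat _ 2
  simp only [h2]
  ring

theorem Q_five : (Q 5 : Polynomial K) =
    120 * Polynomial.X ^ 6 - 360 * Polynomial.X ^ 5 + 390 * Polynomial.X ^ 4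
      - 180 * Polynomial.X ^ 3 + 31 * Polynomial.X ^ 2 - Polynomial.X := by
  simp only [Q, Polynomial.derivative_mul, Polynomial.derivative_sub, Polynomial.derivative_X_pow,
    Polynomial.derivative_X, Polynomial.derivative_one, Polynomial.derivative_add]
  simp
  have h2 : (Polynomial.C (2 : K)) = 2 := map_ofNat _ 2
  simp only [h2]
  ring

theorem Fn_one {a : K} (ha : a ≠ 1) : Fn 1 a = a / (1 - a) ^ 2 := by
  rw [Fn_eq_eval ha, Q_one]
  have h : 1 - a ≠ 0 := sub_ne_zero.2 (Ne.symm ha)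
  simp only [Polynomial.eval_sub, Polynomial.eval_pow, Polynomial.eval_X]
  field_simp
  ring

theorem Fn_three {a : K} (ha : a ≠ 1) :
    Fn 3 a = a * (1 + 4 * a + a ^ 2) / (1 - a) ^ 4 := by
  rw [Fn_eq_eval ha, Q_three]
  have h : 1 - a ≠ 0 := sub_ne_zero.2 (Ne.symm ha)
  simp only [Polynomial.eval_sub, Polynomial.eval_add, Polynomial.eval_mul, Polynomial.eval_pow,
    Polynomial.eval_X, Polynomial.eval_ofNat]
  field_simp
  ring

theorem Fn_five {a : K} (ha : a ≠ 1) :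
    Fn 5 a = a * (1 + 26 * a + 66 * a ^ 2 + 26 * a ^ 3 + a ^ 4) / (1 - a) ^ 6 := by
  rw [Fn_eq_eval ha, Q_five]
  have h : 1 - a ≠ 0 := sub_ne_zero.2 (Ne.symm ha)
  simp only [Polynomial.eval_sub, Polynomial.eval_add, Polynomial.eval_mul, Polynomial.eval_pow,
    Polynomial.eval_X, Polynomial.eval_ofNat]
  field_simp
  ring

/-! ### the product formula and the logarithmic derivative -/

theorem prod_range_sub_mul {R : Type*} [CommRing R] [IsDomain R] {ζ : R} {p : ℕ}
    (hζ : IsPrimitiveRoot ζ p) (hp : 0 < p) (x y : R) :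
    ∏ k ∈ range p, (x - ζ ^ k * y) = x ^ p - y ^ p := by
  classical
  have : NeZero p := ⟨hp.ne'⟩
  rw [hζ.pow_sub_pow_eq_prod_sub_mul x y hp]
  have himg : Polynomial.nthRootsFinset p (1 : R) = (range p).image (fun k => ζ ^ k) := by
    ext μ
    rw [Polynomial.mem_nthRootsFinset hp, mem_image]
    constructor
    · intro h
      obtain ⟨i, hi, rfl⟩ := hζ.eq_pow_of_pow_eq_one h
      exact ⟨i, mem_range.2 hi, rfl⟩
    · rintro ⟨k, _, rfl⟩
      rw [← pow_mul, mul_comm, pow_mul, hζ.pow_eq_one, one_pow]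
  rw [himg, prod_image]
  intro i hi j hj h
  exact hζ.pow_inj (mem_range.1 hi) (mem_range.1 hj) h

theorem derivative_prod_of_inv {ι : Type*} (s : Finset ι) (f h : ι → K⟦X⟧)
    (hf : ∀ i ∈ s, h i * f i = 1) :
    D (∏ i ∈ s, f i) = (∏ i ∈ s, f i) * ∑ i ∈ s, h i * D (f i) := by
  classical
  induction s using Finset.induction_on with
  | empty => simp
  | insert a s ha ih =>
    rw [prod_insert ha, sum_insert ha, Derivation.leibniz,
      ih (fun i hi => hf i (mem_insert_of_mem hi))]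
    have h1 := hf a (mem_insert_self a s)
    simp only [smul_eq_mul]
    linear_combination (-(∏ i ∈ s, f i) * D (f a)) * h1

theorem derivative_exp_pow (p : ℕ) : D (E ^ p) = (p : K⟦X⟧) * E ^ p := by
  rcases Nat.eq_zero_or_pos p with rfl | hp
  · simp
  rw [Derivation.leibniz_pow, derivative_exp]
  simp only [smul_eq_mul, nsmul_eq_mul]
  rw [← pow_succ, Nat.sub_add_cancel hp]

theorem rescale_HS {b : K} (hb : b ≠ 1) (p : ℕ) :
    rescale (p : K) (HS b) = (1 - C b * E ^ p)⁻¹ := by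
  have hc : constantCoeff (1 - C b * E ^ p) ≠ 0 := by
    simp only [map_sub, map_one, map_mul, map_pow, constantCoeff_C, constantCoeff_exp, one_pow,
      mul_one]
    exact sub_ne_zero.2 (Ne.symm hb)
  rw [PowerSeries.eq_inv_iff_mul_eq_one hc]
  have h1 : rescale (p : K) (1 - C b * E) = 1 - C b * E ^ p := by
    rw [map_sub, map_one, map_mul, exp_pow_eq_rescale_exp]
    congr 2
    ext n; simp [coeff_rescale, coeff_C]
    split_ifs with h <;> simp [h]
  rw [← h1, ← map_mul, HS_mul_base hb, map_one]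

/-- **distribution relation**, generating-function form. -/
theorem sum_HS_distrib {ζ w : K} {p : ℕ} (hζ : IsPrimitiveRoot ζ p) (hp : 0 < p)
    (hw : w ^ p ≠ 1) :
    ∑ k ∈ range p, HS (ζ ^ k * w) = (p : K⟦X⟧) * rescale (p : K) (HS (w ^ p)) := by
  have hk : ∀ k, ζ ^ k * w ≠ 1 := by
    intro k h
    apply hw
    have h2 : (ζ ^ k * w) ^ p = 1 := by rw [h, one_pow]
    rwa [mul_pow, ← pow_mul, mul_comm k p, pow_mul, hζ.pow_eq_one, one_pow, one_mul] at h2
  set fW : K⟦X⟧ := 1 - C (w ^ p) * E ^ p with hfW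
  have hζ' : IsPrimitiveRoot (C ζ : K⟦X⟧) p := hζ.map_of_injective PowerSeries.C_injective
  have hprod : ∏ k ∈ range p, (1 - C (ζ ^ k * w) * E) = fW := by
    have := prod_range_sub_mul hζ' hp (1 : K⟦X⟧) (C w * E)
    rw [one_pow, mul_pow, ← map_pow] at this
    rw [hfW, ← this]
    refine prod_congr rfl fun k _ => ?_
    rw [map_mul, map_pow]; ring
  have hD := derivative_prod_of_inv (range p) (fun k => 1 - C (ζ ^ k * w) * E)
    (fun k => HS (ζ ^ k * w)) (fun k _ => HS_mul_base (hk k))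
  rw [hprod] at hD
  have hDW : D fW = (p : K⟦X⟧) * (fW - 1) := by
    rw [hfW, map_sub, Derivation.map_one_eq_zero, Derivation.leibniz, derivative_C,
      derivative_exp_pow]
    simp only [smul_eq_mul]
    ring
  have hsum : ∑ k ∈ range p, HS (ζ ^ k * w) * D (1 - C (ζ ^ k * w) * E)
      = (p : K⟦X⟧) - ∑ k ∈ range p, HS (ζ ^ k * w) := by
    have : ∀ k ∈ range p, HS (ζ ^ k * w) * D (1 - C (ζ ^ k * w) * E) = 1 - HS (ζ ^ k * w) := by
      intro k _
      rw [derivative_base, mul_sub, HS_mul_base (hk k), mul_one]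
    rw [sum_congr rfl this, sum_sub_distrib]
    simp
  rw [hsum, hDW] at hD
  have hkey : fW * ∑ k ∈ range p, HS (ζ ^ k * w) = (p : K⟦X⟧) := by
    linear_combination hD
  have hinv : rescale (p : K) (HS (w ^ p)) * fW = 1 := by
    rw [rescale_HS hw p, hfW]
    exact PowerSeries.inv_mul_cancel _ (by
      simp only [map_sub, map_one, map_mul, map_pow, constantCoeff_C, constantCoeff_exp, one_pow,
        mul_one]
      exact sub_ne_zero.2 (Ne.symm hw))
  calc ∑ k ∈ range p, HS (ζ ^ k * w)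
      = (rescale (p : K) (HS (w ^ p)) * fW) * ∑ k ∈ range p, HS (ζ ^ k * w) := by
        rw [hinv, one_mul]
    _ = rescale (p : K) (HS (w ^ p)) * (fW * ∑ k ∈ range p, HS (ζ ^ k * w)) := by ring
    _ = (p : K⟦X⟧) * rescale (p : K) (HS (w ^ p)) := by rw [hkey]; ring

/-- **(A1) distribution relation**: `∑_{k<p} F_n(ζ^k w) = p^(n+1) F_n(w^p)`. -/
theorem sum_Fn_distrib {ζ w : K} {p : ℕ} (hζ : IsPrimitiveRoot ζ p) (hp : 0 < p)
    (hw : w ^ p ≠ 1) (n : ℕ) :
    ∑ k ∈ range p, Fn n (ζ ^ k * w) = (p : K) ^ (n + 1) * Fn n (w ^ p) := by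
  have h := congrArg (coeff n) (sum_HS_distrib hζ hp hw)
  rw [map_sum, ← map_natCast (C (R := K)), coeff_C_mul, coeff_rescale] at h
  simp only [Fn, ← mul_sum, h]
  ring

/-! ### the constants: `w = 1` -/

theorem one_sub_exp_pow_ne_zero {p : ℕ} (hp : 0 < p) : (1 - E ^ p : K⟦X⟧) ≠ 0 := by
  intro h
  have h1 := congrArg (coeff 1) h
  rw [exp_pow_eq_rescale_exp, map_sub, coeff_rescale, coeff_exp] at h1
  simp at h1
  exact hp.ne' h1

theorem one_sub_exp_ne_zero : (1 - E : K⟦X⟧) ≠ 0 := by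
  simpa using one_sub_exp_pow_ne_zero (K := K) (p := 1) Nat.one_pos

local notation "Bp" => bernoulli'PowerSeries K

/-- **the constants, generating-function form**:
`ε · ∑_{0<k<p} ζ^k e^ε/(1 - ζ^k e^ε) = B⁺(ε) - B⁺(pε)`. -/
theorem X_mul_sum_HS_roots {ζ : K} {p : ℕ} (hζ : IsPrimitiveRoot ζ p) (hp : 0 < p) :
    X * ∑ k ∈ Ico 1 p, (HS (ζ ^ k) - 1) = Bp - rescale (p : K) Bp := by
  have hk : ∀ k ∈ Ico 1 p, ζ ^ k ≠ 1 := fun k hk =>
    hζ.pow_ne_one_of_pos_of_lt (Nat.one_le_iff_ne_zero.1 (mem_Ico.1 hk).1) (mem_Ico.1 hk).2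
  set T : K⟦X⟧ := ∑ k ∈ Ico 1 p, (HS (ζ ^ k) - 1) with hT
  set Φ : K⟦X⟧ := ∏ k ∈ Ico 1 p, (1 - C (ζ ^ k) * E) with hΦ
  have hζ' : IsPrimitiveRoot (C ζ : K⟦X⟧) p := hζ.map_of_injective PowerSeries.C_injective
  have hprod : (1 - E) * Φ = 1 - E ^ p := by
    have := prod_range_sub_mul hζ' hp (1 : K⟦X⟧) E
    rw [one_pow, range_eq_Ico, prod_eq_prod_Ico_succ_bot hp] at this
    rw [← this, hΦ]
    simp only [pow_zero, one_mul, zero_add, map_pow]
  have hDΦ : D Φ = -(Φ * T) := by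
    have h := derivative_prod_of_inv (Ico 1 p) (fun k => 1 - C (ζ ^ k) * E)
      (fun k => HS (ζ ^ k)) (fun k hk' => HS_mul_base (hk k hk'))
    rw [h, hT, ← hΦ, ← mul_neg, ← sum_neg_distrib]
    congr 1
    refine sum_congr rfl fun k hk' => ?_
    rw [derivative_base, mul_sub, HS_mul_base (hk k hk'), mul_one]; ring
  have hDE : D (1 - E) = -E := by
    rw [map_sub, Derivation.map_one_eq_zero, derivative_exp]; ring
  have hstar : (1 - E) * Φ * T = (p : K⟦X⟧) * E ^ p - E * Φ := by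
    have h := congrArg D hprod
    rw [Derivation.leibniz, hDΦ, hDE, map_sub, Derivation.map_one_eq_zero, derivative_exp_pow]
      at h
    simp only [smul_eq_mul] at h
    linear_combination -h
  have h1 : (1 - E) * (1 - E ^ p) * T = (p : K⟦X⟧) * E ^ p * (1 - E) - E * (1 - E ^ p) := by
    linear_combination (1 - E) * hstar - ((1 - E) * T + E) * hprod
  have hB : Bp * (E - 1) = X * E := bernoulli'PowerSeries_mul_exp_sub_one K
  have hBp : rescale (p : K) Bp * (E ^ p - 1) = (p : K⟦X⟧) * X * E ^ p := by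
    have := congrArg (rescale (p : K)) hB
    rw [map_mul, map_sub, map_one, map_mul, rescale_X, ← exp_pow_eq_rescale_exp, map_natCast]
      at this
    exact this
  have hne : (1 - E) * (1 - E ^ p) ≠ (0 : K⟦X⟧) :=
    mul_ne_zero one_sub_exp_ne_zero (one_sub_exp_pow_ne_zero hp)
  apply mul_left_cancel₀ hne
  linear_combination X * h1 + (1 - E ^ p) * hB - (1 - E) * hBp

/-- **(A2) the constants**: for `n ≥ 1`,
`∑_{0<k<p} F_n(ζ^k) = (1 - p^(n+1)) · B⁺_{n+1} / (n+1)`. -/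
theorem sum_Fn_roots {ζ : K} {p : ℕ} (hζ : IsPrimitiveRoot ζ p) (hp : 0 < p) {n : ℕ}
    (hn : 1 ≤ n) :
    ∑ k ∈ Ico 1 p, Fn n (ζ ^ k)
      = (1 - (p : K) ^ (n + 1)) * ((bernoulli' (n + 1) : ℚ) : K) / ((n : K) + 1) := by
  have h := congrArg (coeff (n + 1)) (X_mul_sum_HS_roots hζ hp)
  rw [coeff_succ_X_mul, map_sum, map_sub, coeff_rescale] at h
  have hc : ∀ k ∈ Ico 1 p, coeff n (HS (ζ ^ k) - 1) = coeff n (HS (ζ ^ k)) := by
    intro k _
    rw [map_sub, coeff_one, if_neg (by omega), sub_zero]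
  rw [sum_congr rfl hc] at h
  have hb : coeff (n + 1) Bp = ((bernoulli' (n + 1) : ℚ) : K) / ((n + 1).factorial : K) := by
    rw [bernoulli'PowerSeries, coeff_mk, eq_ratCast, Rat.cast_div, Rat.cast_natCast]
  rw [hb] at h
  have hf : ((n + 1).factorial : K) = ((n : K) + 1) * (n.factorial : K) := by
    rw [Nat.factorial_succ]; push_cast; ring
  have hf0 : (n.factorial : K) ≠ 0 := Nat.cast_ne_zero.2 (Nat.factorial_ne_zero n)
  have hn0 : (n : K) + 1 ≠ 0 := by
    have : ((n + 1 : ℕ) : K) ≠ 0 := Nat.cast_ne_zero.2 (Nat.succ_ne_zero n)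
    simpa using this
  simp only [Fn, ← mul_sum, h, hf]
  field_simp

theorem bernoulli'_five : bernoulli' 5 = 0 :=
  bernoulli'_eq_zero_of_odd (by decide) (by norm_num)

theorem bernoulli'_six : bernoulli' 6 = 1 / 42 := by
  have h1 : Nat.choose 6 2 = 15 := by decide
  have h2 : Nat.choose 6 3 = 20 := by decide
  have h3 : Nat.choose 6 4 = 15 := by decide
  rw [bernoulli'_def]
  norm_num [sum_range_succ, sum_range_zero, h1, h2, h3, bernoulli'_zero, bernoulli'_one,
    bernoulli'_two, bernoulli'_three, bernoulli'_four, bernoulli'_five]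

/-- `∑_{ζ^p = 1, ζ ≠ 1} ζ/(1-ζ)² = -(p²-1)/12`. -/
theorem sum_F1_roots {ζ : K} {p : ℕ} (hζ : IsPrimitiveRoot ζ p) (hp : 0 < p) :
    ∑ k ∈ Ico 1 p, Fn 1 (ζ ^ k) = -((p : K) ^ 2 - 1) / 12 := by
  rw [sum_Fn_roots hζ hp le_rfl, bernoulli'_two]
  push_cast
  ring

/-- `∑_{ζ^p = 1, ζ ≠ 1} F_3(ζ) = (p⁴-1)/120`. -/
theorem sum_F3_roots {ζ : K} {p : ℕ} (hζ : IsPrimitiveRoot ζ p) (hp : 0 < p) :
    ∑ k ∈ Ico 1 p, Fn 3 (ζ ^ k) = ((p : K) ^ 4 - 1) / 120 := by
  rw [sum_Fn_roots hζ hp (by norm_num), bernoulli'_four]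
  push_cast
  ring

/-- `∑_{ζ^p = 1, ζ ≠ 1} F_5(ζ) = -(p⁶-1)/252`. -/
theorem sum_F5_roots {ζ : K} {p : ℕ} (hζ : IsPrimitiveRoot ζ p) (hp : 0 < p) :
    ∑ k ∈ Ico 1 p, Fn 5 (ζ ^ k) = -((p : K) ^ 6 - 1) / 252 := by
  rw [sum_Fn_roots hζ hp (by norm_num), bernoulli'_six]
  push_cast
  ring

end Fermat.Agent.GZ.Tate.T5.RootSums
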