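/-
GATE-Z (S15) / [MOD-beta] (T5), PART B (helper37): the series `S3 q u = ∑_{n ∈ ℤ} F_3(q^n u)`,
`S5 q u = ∑_{n ∈ ℤ} F_5(q^n u)` (`= D²X`, `D⁴X`, `D = u d/du`) over a complete ultrametric field
and their sums over the two kinds of subgroups of order `p` of the Tate curve.
-/
import Mathlib
import Fermat.Agent.GZ.Tate.Defs
import Fermat.Agent.GZ.Tate.T5.RootSums

set_option autoImplicit false

noncomputable section

open Finset Filter Topology

namespace Fermat.Agent.GZ.Tate.T5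

open Fermat.Agent.GZ.Tate Fermat.Agent.GZ.Tate.T5.RootSums

variable {K : Type*} [NormedField K] [IsUltrametricDist K] [CompleteSpace K]

/-! ### power sums: `F_j(w) = ∑ n^j w^n` -/

section powsum

variable [CharZero K]

theorem summable_pow_mul_pow (j : ℕ) {w : K} (hw : ‖w‖ < 1) :
    Summable (fun n : ℕ => (n : K) ^ j * w ^ n) :=
  summable_pow_mul_geometric_of_norm_lt_one j hw

/-- `g_j(w) = ∑_n n^j w^n`. -/
def powSum (j : ℕ) (w : K) : K := ∑' n : ℕ, (n : K) ^ j * w ^ n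

theorem powSum_shift (j : ℕ) {w : K} (hw : ‖w‖ < 1) :
    powSum j w = (0 : K) ^ j + w * ∑' n : ℕ, ((n : K) + 1) ^ j * w ^ n := by
  unfold powSum
  rw [(summable_pow_mul_pow j hw).tsum_eq_zero_add, ← tsum_mul_left]
  congr 1
  · simp
  · refine tsum_congr fun n => ?_
    push_cast
    ring

theorem tsum_succ_pow (j : ℕ) {w : K} (hw : ‖w‖ < 1) :
    ∑' n : ℕ, ((n : K) + 1) ^ j * w ^ n
      = ∑ b ∈ range (j + 1), (j.choose b : K) * powSum b w := by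
  have h1 : ∀ n : ℕ, ((n : K) + 1) ^ j * w ^ n
      = ∑ b ∈ range (j + 1), (j.choose b : K) * ((n : K) ^ b * w ^ n) := by
    intro n
    rw [add_pow, sum_mul]
    refine sum_congr rfl fun b _ => ?_
    rw [one_pow]; ring
  rw [tsum_congr h1, Summable.tsum_finsetSum]
  · refine sum_congr rfl fun b _ => ?_
    rw [tsum_mul_left]; rfl
  · intro b _
    exact (summable_pow_mul_pow b hw).mul_left _

/-- the exponential generating series of the power sums is `(1 - w e^ε)⁻¹`. -/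
theorem mk_powSum_eq_HS {w : K} (hw : ‖w‖ < 1) :
    PowerSeries.mk (fun j => powSum j w / (j.factorial : K)) = HS w := by
  have hw1 : w ≠ 1 := by
    rintro rfl; simp at hw
  have hc : PowerSeries.constantCoeff (1 - PowerSeries.C w * PowerSeries.exp K) ≠ 0 := by
    rw [constantCoeff_base]; exact sub_ne_zero.2 (Ne.symm hw1)
  rw [HS, PowerSeries.eq_inv_iff_mul_eq_one hc]
  ext j
  rw [mul_sub, mul_one, map_sub, mul_comm _ (PowerSeries.C w * PowerSeries.exp K), mul_assoc,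
    PowerSeries.coeff_C_mul, PowerSeries.coeff_mul, PowerSeries.coeff_mk, PowerSeries.coeff_one]
  have hsum : ∑ x ∈ antidiagonal j, PowerSeries.coeff x.1 (PowerSeries.exp K)
        * PowerSeries.coeff x.2 (PowerSeries.mk fun j => powSum j w / (j.factorial : K))
      = (∑ b ∈ range (j + 1), (j.choose b : K) * powSum b w) / (j.factorial : K) := by
    rw [Finset.Nat.sum_antidiagonal_eq_sum_range_succ_mk, sum_div]
    have : ∀ b ∈ range (j + 1), PowerSeries.coeff (b) (PowerSeries.exp K) *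
          PowerSeries.coeff (j - b)
            (PowerSeries.mk fun j => powSum j w / (j.factorial : K)) =
        (j.choose (j - b) : K) * powSum (j - b) w / (j.factorial : K) := by
      intro b hb
      have hb' : b ≤ j := Nat.lt_succ_iff.1 (mem_range.1 hb)
      rw [PowerSeries.coeff_exp, PowerSeries.coeff_mk, Nat.choose_symm hb',
        Nat.cast_choose K hb']
      have h1 : (b.factorial : K) ≠ 0 := Nat.cast_ne_zero.2 (Nat.factorial_ne_zero b)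
      have h2 : ((j - b).factorial : K) ≠ 0 := Nat.cast_ne_zero.2 (Nat.factorial_ne_zero _)
      have h3 : (j.factorial : K) ≠ 0 := Nat.cast_ne_zero.2 (Nat.factorial_ne_zero j)
      simp only [eq_ratCast, Rat.cast_div, Rat.cast_one, Rat.cast_natCast]
      field_simp
    rw [sum_congr rfl this]
    exact (Finset.sum_range_reflect (fun b => (j.choose b : K) * powSum b w / (j.factorial : K))
      (j + 1)).symm ▸ (by
        refine sum_congr rfl fun b hb => ?_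
        have hb' : b ≤ j := Nat.lt_succ_iff.1 (mem_range.1 hb)
        simp [Nat.add_sub_cancel, Nat.sub_sub_self hb'])
  rw [hsum, ← tsum_succ_pow j hw]
  have hshift := powSum_shift j hw
  rcases Nat.eq_zero_or_pos j with rfl | hj
  · simp at hshift ⊢
    linear_combination hshift
  · rw [zero_pow hj.ne', zero_add] at hshift
    rw [if_neg hj.ne', hshift]
    have h3 : (j.factorial : K) ≠ 0 := Nat.cast_ne_zero.2 (Nat.factorial_ne_zero j)
    field_simp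
    ring

/-- **`F_j(w) = ∑_n n^j w^n`** for `‖w‖ < 1`. -/
theorem hasSum_Fn (j : ℕ) {w : K} (hw : ‖w‖ < 1) :
    HasSum (fun n : ℕ => (n : K) ^ j * w ^ n) (Fn j w) := by
  have h := congrArg (PowerSeries.coeff j) (mk_powSum_eq_HS hw)
  rw [PowerSeries.coeff_mk] at h
  have h3 : (j.factorial : K) ≠ 0 := Nat.cast_ne_zero.2 (Nat.factorial_ne_zero j)
  have : Fn j w = powSum j w := by
    rw [Fn, ← h]; field_simp
  rw [this]
  exact (summable_pow_mul_pow j hw).hasSum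

end powsum

/-! ### the functions `F_3`, `F_5` -/

/-- `F_3(w) = w(1 + 4w + w²)/(1 - w)⁴ = ∑ n³ wⁿ`. -/
def F3 (w : K) : K := w * (1 + 4 * w + w ^ 2) / (1 - w) ^ 4

/-- `F_5(w) = w(1 + 26w + 66w² + 26w³ + w⁴)/(1 - w)⁶ = ∑ n⁵ wⁿ`. -/
def F5 (w : K) : K := w * (1 + 26 * w + 66 * w ^ 2 + 26 * w ^ 3 + w ^ 4) / (1 - w) ^ 6

/-- `S3 q u = ∑_{n ∈ ℤ} F_3(qⁿ u)` (`= D²X`). -/
def S3 (q u : K) : K := ∑' n : ℤ, F3 (q ^ n * u)

/-- `S5 q u = ∑_{n ∈ ℤ} F_5(qⁿ u)` (`= D⁴X`). -/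
def S5 (q u : K) : K := ∑' n : ℤ, F5 (q ^ n * u)

/-- the properties of `F_3`, `F_5` used by the summation lemmas. -/
structure Good (F : K → K) : Prop where
  one : F 1 = 0
  inv : ∀ w : K, w ≠ 0 → F w⁻¹ = F w
  le : ∀ w : K, ‖w‖ < 1 → ‖F w‖ ≤ ‖w‖

omit [CompleteSpace K] in
theorem norm_ofNat_le_one (n : ℕ) [n.AtLeastTwo] : ‖(OfNat.ofNat n : K)‖ ≤ 1 := by
  have := IsUltrametricDist.norm_natCast_le_one K (OfNat.ofNat n : ℕ)
  simpa using this

omit [CompleteSpace K] in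
theorem good_F3 : Good (F3 : K → K) where
  one := by simp [F3]
  inv := by
    intro w hw
    unfold F3
    by_cases h1 : w = 1
    · subst h1; simp
    have h1' : (1 : K) - w ≠ 0 := sub_ne_zero.2 (Ne.symm h1)
    have h2 : (1 : K) - w⁻¹ ≠ 0 := by
      intro h
      apply h1
      have : w⁻¹ = 1 := (sub_eq_zero.1 h).symm
      rw [← inv_inv w, this, inv_one]
    field_simp
    ring
  le := by
    intro w hw
    unfold F3
    rw [norm_div, norm_pow, norm_one_sub_of_lt hw, one_pow, div_one, norm_mul]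
    have h4 : ‖(4 : K) * w‖ ≤ 1 := by
      rw [norm_mul]
      exact mul_le_one₀ (norm_ofNat_le_one 4) (norm_nonneg _) hw.le
    have h2 : ‖w ^ 2‖ ≤ 1 := by
      rw [norm_pow]; exact pow_le_one₀ (norm_nonneg _) hw.le
    have hsum : ‖1 + 4 * w + w ^ 2‖ ≤ 1 := by
      refine (IsUltrametricDist.norm_add_le_max _ _).trans (max_le ?_ h2)
      refine (IsUltrametricDist.norm_add_le_max _ _).trans (max_le ?_ h4)
      simp
    exact mul_le_of_le_one_right (norm_nonneg _) hsum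

omit [CompleteSpace K] in
theorem good_F5 : Good (F5 : K → K) where
  one := by simp [F5]
  inv := by
    intro w hw
    unfold F5
    by_cases h1 : w = 1
    · subst h1; simp
    have h1' : (1 : K) - w ≠ 0 := sub_ne_zero.2 (Ne.symm h1)
    have h2 : (1 : K) - w⁻¹ ≠ 0 := by
      intro h
      apply h1
      have : w⁻¹ = 1 := (sub_eq_zero.1 h).symm
      rw [← inv_inv w, this, inv_one]
    field_simp
    ring
  le := by
    intro w hw
    unfold F5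
    rw [norm_div, norm_pow, norm_one_sub_of_lt hw, one_pow, div_one, norm_mul]
    have hpw : ∀ k : ℕ, ‖w ^ k‖ ≤ 1 := fun k => by
      rw [norm_pow]; exact pow_le_one₀ (norm_nonneg _) hw.le
    have hc : ∀ (c : K), ‖c‖ ≤ 1 → ∀ k : ℕ, ‖c * w ^ k‖ ≤ 1 := fun c hc k => by
      rw [norm_mul]; exact mul_le_one₀ hc (norm_nonneg _) (hpw k)
    have h26 : ‖(26 : K) * w‖ ≤ 1 := by simpa using hc 26 (norm_ofNat_le_one 26) 1
    have hsum : ‖1 + 26 * w + 66 * w ^ 2 + 26 * w ^ 3 + w ^ 4‖ ≤ 1 := by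
      refine (IsUltrametricDist.norm_add_le_max _ _).trans (max_le ?_ (hpw 4))
      refine (IsUltrametricDist.norm_add_le_max _ _).trans
        (max_le ?_ (hc 26 (norm_ofNat_le_one 26) 3))
      refine (IsUltrametricDist.norm_add_le_max _ _).trans
        (max_le ?_ (hc 66 (norm_ofNat_le_one 66) 2))
      refine (IsUltrametricDist.norm_add_le_max _ _).trans (max_le ?_ h26)
      simp
    exact mul_le_of_le_one_right (norm_nonneg _) hsum

section charzero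

variable [CharZero K]

omit [IsUltrametricDist K] [CompleteSpace K] in
theorem Fn_at_one (n : ℕ) : Fn n (1 : K) = 0 := by
  have : HS (1 : K) = 0 := by
    rw [HS, PowerSeries.inv_eq_zero, constantCoeff_base, sub_self]
  rw [Fn, this, map_zero, mul_zero]

omit [IsUltrametricDist K] [CompleteSpace K] in
theorem F3_eq_Fn (w : K) : F3 w = Fn 3 w := by
  by_cases h : w = 1
  · subst h; rw [Fn_at_one]; simp [F3]
  · rw [Fn_three h, F3]

omit [IsUltrametricDist K] [CompleteSpace K] in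
theorem F5_eq_Fn (w : K) : F5 w = Fn 5 w := by
  by_cases h : w = 1
  · subst h; rw [Fn_at_one]; simp [F5]
  · rw [Fn_five h, F5]

end charzero

/-! ### summability over `ℤ` -/

section summ

variable {F : K → K} {q : K}

theorem Good.summable_nat (hF : Good F) (hq1 : ‖q‖ < 1) (u : K) :
    Summable (fun n : ℕ => F (q ^ n * u)) := by
  have hg : Summable (fun n : ℕ => ‖q‖ ^ n * ‖u‖) :=
    (summable_geometric_of_lt_one (norm_nonneg _) hq1).mul_right _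
  refine Summable.of_norm_bounded_eventually_nat hg ?_
  have hlim : Tendsto (fun n : ℕ => ‖q‖ ^ n * ‖u‖) atTop (𝓝 0) := by
    simpa using (tendsto_pow_atTop_nhds_zero_of_lt_one (norm_nonneg _) hq1).mul_const ‖u‖
  filter_upwards [hlim.eventually (gt_mem_nhds one_pos)] with n hn
  have h1 : ‖q ^ n * u‖ = ‖q‖ ^ n * ‖u‖ := by rw [norm_mul, norm_pow]
  exact (hF.le _ (by rw [h1]; exact hn)).trans h1.le

theorem Good.summable_int (hF : Good F) (hq0 : q ≠ 0) (hq1 : ‖q‖ < 1) {u : K} (hu : u ≠ 0) :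
    Summable (fun n : ℤ => F (q ^ n * u)) := by
  rw [summable_int_iff_summable_nat_and_neg]
  refine ⟨?_, ?_⟩
  · exact (hF.summable_nat hq1 u).congr fun n => by rw [zpow_natCast]
  · refine (hF.summable_nat hq1 u⁻¹).congr fun n => ?_
    have h1 : q ^ (-(n : ℤ)) * u = (q ^ n * u⁻¹)⁻¹ := by
      rw [zpow_neg, zpow_natCast, mul_inv, inv_inv]
    rw [h1, hF.inv _ (mul_ne_zero (pow_ne_zero n hq0) (inv_ne_zero hu))]

/-- `∑_{n ∈ ℤ} F(qⁿ) = 2 ∑_{n ≥ 1} F(qⁿ)` (the term `n = 0` is `F 1 = 0`). -/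
theorem Good.tsum_int_pow (hF : Good F) (hq0 : q ≠ 0) (hq1 : ‖q‖ < 1) :
    ∑' n : ℤ, F (q ^ n) = 2 * ∑' n : ℕ, F (q ^ (n + 1)) := by
  have hs : Summable (fun n : ℕ => F (q ^ n)) := by simpa using hF.summable_nat hq1 1
  have hs1 : Summable (fun n : ℕ => F (q ^ (n + 1))) :=
    (summable_nat_add_iff (f := fun n : ℕ => F (q ^ n)) 1).2 hs
  have hneg : ∀ n : ℕ, F (q ^ (-((n : ℤ) + 1))) = F (q ^ (n + 1)) := by
    intro n
    have h2 : ((n : ℤ) + 1) = ((n + 1 : ℕ) : ℤ) := by push_cast; ring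
    rw [zpow_neg, hF.inv _ (zpow_ne_zero _ hq0), h2, zpow_natCast]
  have e1 : (fun n : ℕ => F (q ^ ((n : ℤ)))) = fun n : ℕ => F (q ^ n) := by
    funext n; rw [zpow_natCast]
  have e2 : (fun n : ℕ => F (q ^ (-((n : ℤ) + 1)))) = fun n : ℕ => F (q ^ (n + 1)) := by
    funext n; exact hneg n
  have key := tsum_of_nat_of_neg_add_one (f := fun n : ℤ => F (q ^ n))
    (by rw [e1]; exact hs) (by rw [e2]; exact hs1)
  rw [key, e1, e2, hs.tsum_eq_zero_add, pow_zero, hF.one]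
  ring

end summ

/-! ### `∑_{n ≥ 1} F_j(qⁿ) = s_j(q)` -/

section lambert

variable [CharZero K] {q : K}

theorem tsum_Fn_pow {j : ℕ} (hj : 1 ≤ j) (hq1 : ‖q‖ < 1) :
    ∑' n : ℕ, Fn j (q ^ (n + 1)) = sK j q := by
  set f : ℕ → ℕ → K := fun n m => ((m + 1 : ℕ) : K) ^ j * (q ^ (n + 1)) ^ (m + 1) with hf
  have hq0' : (0 : ℝ) ≤ ‖q‖ := norm_nonneg _
  have hgeo : Summable (fun n : ℕ => ‖q‖ ^ n) := summable_geometric_of_lt_one hq0' hq1
  have hbound : Summable (fun x : ℕ × ℕ => ‖q‖ ^ x.1 * ‖q‖ ^ x.2) :=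
    hgeo.mul_of_nonneg hgeo (fun _ => pow_nonneg hq0' _) (fun _ => pow_nonneg hq0' _)
  have hsum : Summable (Function.uncurry f) := by
    refine Summable.of_norm_bounded hbound ?_
    rintro ⟨n, m⟩
    simp only [Function.uncurry, hf]
    rw [norm_mul, norm_pow, norm_pow, norm_pow, ← pow_mul, ← pow_add]
    have h1 : ‖((m + 1 : ℕ) : K)‖ ^ j ≤ 1 :=
      pow_le_one₀ (norm_nonneg _) (IsUltrametricDist.norm_natCast_le_one K _)
    have h2 : ‖q‖ ^ ((n + 1) * (m + 1)) ≤ ‖q‖ ^ (n + m) :=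
      pow_le_pow_of_le_one hq0' hq1.le (by nlinarith)
    calc ‖((m + 1 : ℕ) : K)‖ ^ j * ‖q‖ ^ ((n + 1) * (m + 1))
        ≤ 1 * ‖q‖ ^ (n + m) := mul_le_mul h1 h2 (pow_nonneg hq0' _) zero_le_one
      _ = ‖q‖ ^ (n + m) := one_mul _
  have hrow : ∀ n, ∑' m, f n m = Fn j (q ^ (n + 1)) := by
    intro n
    have hw : ‖q ^ (n + 1)‖ < 1 := by
      rw [norm_pow]; exact pow_lt_one₀ hq0' hq1 (Nat.succ_ne_zero n)
    have h := hasSum_Fn j hw
    rw [← h.tsum_eq, h.summable.tsum_eq_zero_add]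
    simp only [hf, Nat.cast_zero, zero_pow (Nat.one_le_iff_ne_zero.1 hj), zero_mul, zero_add]
  have hcol : ∀ m, ∑' n, f n m = sTerm j q m := by
    intro m
    have hr : ‖q ^ (m + 1)‖ < 1 := by
      rw [norm_pow]; exact pow_lt_one₀ hq0' hq1 (Nat.succ_ne_zero m)
    have h1 : ∀ n, f n m = (((m + 1 : ℕ) : K) ^ j * q ^ (m + 1)) * (q ^ (m + 1)) ^ n := by
      intro n
      simp only [hf]
      rw [← pow_mul, ← pow_mul, mul_assoc, ← pow_add]
      congr 2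
      ring
    rw [tsum_congr h1, tsum_mul_left, tsum_geometric_of_norm_lt_one hr, sTerm]
    rw [div_eq_mul_inv]
  calc ∑' n : ℕ, Fn j (q ^ (n + 1)) = ∑' n, ∑' m, f n m := by
        refine tsum_congr fun n => (hrow n).symm
    _ = ∑' m, ∑' n, f n m := (hsum.tsum_comm).symm
    _ = sK j q := by rw [sK]; exact tsum_congr hcol

end lambert

/-! ### sums over the subgroup `μ_p` -/

section mu

variable {F : K → K} {q : K}

/-- **the `μ_p` sum**, abstract form: a distribution relation with multiplier `P` and the constant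
`c = ∑_{ζ ≠ 1} F(ζ)` give
`∑_{0<k<p} ∑_{n ∈ ℤ} F(qⁿ ζ^k) = c + P ∑_{n ∈ ℤ} F((q^p)ⁿ) - ∑_{n ∈ ℤ} F(qⁿ)`. -/
theorem Good.sum_mu (hF : Good F) (hq0 : q ≠ 0) (hq1 : ‖q‖ < 1) {ζ : K} {p : ℕ}
    (hζ : IsPrimitiveRoot ζ p) (hp : 0 < p) {P c : K}
    (hdist : ∀ w : K, w ^ p ≠ 1 → ∑ k ∈ range p, F (ζ ^ k * w) = P * F (w ^ p))
    (hc : ∑ k ∈ Ico 1 p, F (ζ ^ k) = c) :
    ∑ k ∈ Ico 1 p, ∑' n : ℤ, F (q ^ n * ζ ^ k)
      = c + P * ∑' n : ℤ, F ((q ^ p) ^ n) - ∑' n : ℤ, F (q ^ n) := by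
  have hζ0 : ζ ≠ 0 := hζ.ne_zero hp.ne'
  have hqp0 : q ^ p ≠ 0 := pow_ne_zero p hq0
  have hqp1 : ‖q ^ p‖ < 1 := by
    rw [norm_pow]; exact pow_lt_one₀ (norm_nonneg _) hq1 hp.ne'
  have hsk : ∀ k ∈ Ico 1 p, Summable (fun n : ℤ => F (q ^ n * ζ ^ k)) := fun k _ =>
    hF.summable_int hq0 hq1 (pow_ne_zero k hζ0)
  have hs1 : Summable (fun n : ℤ => F (q ^ n)) := by
    simpa using hF.summable_int hq0 hq1 (one_ne_zero (α := K))
  have hsp : Summable (fun n : ℤ => F ((q ^ p) ^ n)) := by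
    simpa using hF.summable_int hqp0 hqp1 (one_ne_zero (α := K))
  have hs0 : Summable (fun n : ℤ => if n = 0 then c else 0) :=
    summable_of_ne_finset_zero (s := {0}) (fun n hn => by
      rw [if_neg (by simpa using hn)])
  rw [← Summable.tsum_finsetSum hsk]
  have hpt : ∀ n : ℤ, ∑ k ∈ Ico 1 p, F (q ^ n * ζ ^ k)
      = (if n = 0 then c else 0) + P * F ((q ^ p) ^ n) - F (q ^ n) := by
    intro n
    by_cases hn : n = 0
    · subst hn
      simp only [zpow_zero, one_mul, if_true, hF.one, mul_zero, add_zero, sub_zero]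
      exact hc
    · rw [if_neg hn, zero_add]
      have hw : (q ^ n) ^ p ≠ 1 := by
        intro h
        have h1 : ‖q‖ ^ (n * (p : ℤ)) = 1 := by
          rw [zpow_mul, zpow_natCast, ← norm_zpow, ← norm_pow, h, norm_one]
        have h2 := (zpow_eq_one_iff_right₀ (norm_nonneg q) hq1.ne).1 h1
        rcases mul_eq_zero.1 h2 with h3 | h3
        · exact hn h3
        · exact hp.ne' (by exact_mod_cast h3)
      have h1 := hdist (q ^ n) hw
      rw [range_eq_Ico, sum_eq_sum_Ico_succ_bot hp, pow_zero, one_mul] at h1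
      have h2 : (q ^ n) ^ p = (q ^ p) ^ n := by
        rw [← zpow_natCast, ← zpow_mul, mul_comm, zpow_mul, zpow_natCast]
      rw [h2] at h1
      have h3 : ∑ k ∈ Ico 1 p, F (q ^ n * ζ ^ k) = ∑ k ∈ Ico (0 + 1) p, F (ζ ^ k * q ^ n) :=
        sum_congr (by rw [zero_add]) fun k _ => by rw [mul_comm]
      rw [h3]
      linear_combination h1
  rw [tsum_congr hpt, (hs0.add (hsp.mul_left P)).tsum_sub hs1, hs0.tsum_add (hsp.mul_left P),
    tsum_ite_eq, tsum_mul_left]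

end mu

/-! ### sums over the subgroup generated by a `p`-th root `t` of `q` -/

section root

variable {F : K → K}

/-- **the `⟨t⟩` sum**, abstract form:
`∑_{0<k<p} ∑_{n ∈ ℤ} F((t^p)ⁿ t^k) = ∑_{m ∈ ℤ} F(t^m) - ∑_{n ∈ ℤ} F((t^p)ⁿ)`. -/
theorem Good.sum_root (hF : Good F) {t : K} (ht0 : t ≠ 0) (ht1 : ‖t‖ < 1) {p : ℕ}
    (hp : 0 < p) :
    ∑ k ∈ Ico 1 p, ∑' n : ℤ, F ((t ^ p) ^ n * t ^ k)
      = ∑' m : ℤ, F (t ^ m) - ∑' n : ℤ, F ((t ^ p) ^ n) := by
  haveI : NeZero p := ⟨hp.ne'⟩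
  have htp0 : t ^ p ≠ 0 := pow_ne_zero p ht0
  have htp1 : ‖t ^ p‖ < 1 := by
    rw [norm_pow]; exact pow_lt_one₀ (norm_nonneg _) ht1 hp.ne'
  set g : ℤ → K := fun m => F (t ^ m) with hg
  have hgs : Summable g := by
    simpa using hF.summable_int ht0 ht1 (one_ne_zero (α := K))
  have hkey : ∀ (a : ℤ) (k : ℕ), g (a * (p : ℤ) + (k : ℤ)) = F ((t ^ p) ^ a * t ^ k) := by
    intro a k
    simp only [hg]
    rw [zpow_add₀ ht0, zpow_natCast, mul_comm a (p : ℤ), zpow_mul, zpow_natCast]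
  have hsk : ∀ k : ℕ, Summable (fun a : ℤ => F ((t ^ p) ^ a * t ^ k)) := fun k =>
    hF.summable_int htp0 htp1 (pow_ne_zero k ht0)
  have hsum2 : Summable (g ∘ (Int.divModEquiv p).symm) :=
    (Equiv.summable_iff (Int.divModEquiv p).symm).2 hgs
  have h1 : ∑' m : ℤ, g m = ∑' x : ℤ × Fin p, (g ∘ (Int.divModEquiv p).symm) x :=
    ((Int.divModEquiv p).symm.tsum_eq g).symm
  have h2 : ∑' x : ℤ × Fin p, (g ∘ (Int.divModEquiv p).symm) x
      = ∑' a : ℤ, ∑ b : Fin p, F ((t ^ p) ^ a * t ^ (b : ℕ)) := by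
    rw [hsum2.tsum_prod]
    refine tsum_congr fun a => ?_
    rw [tsum_fintype]
    refine Finset.sum_congr rfl fun b _ => ?_
    rw [Function.comp_apply, Int.divModEquiv_symm_apply]
    exact hkey a b
  have h3 : ∑' a : ℤ, ∑ b : Fin p, F ((t ^ p) ^ a * t ^ (b : ℕ))
      = ∑ b : Fin p, ∑' a : ℤ, F ((t ^ p) ^ a * t ^ (b : ℕ)) :=
    Summable.tsum_finsetSum fun b _ => hsk b
  have h4 : ∑ b : Fin p, ∑' a : ℤ, F ((t ^ p) ^ a * t ^ (b : ℕ))
      = ∑ k ∈ range p, ∑' a : ℤ, F ((t ^ p) ^ a * t ^ k) :=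
    Fin.sum_univ_eq_sum_range (fun k => ∑' a : ℤ, F ((t ^ p) ^ a * t ^ k)) p
  have h5 : ∑' m : ℤ, F (t ^ m) = ∑ k ∈ range p, ∑' a : ℤ, F ((t ^ p) ^ a * t ^ k) := by
    rw [← h4, ← h3, ← h2, ← h1]
  rw [h5, range_eq_Ico, sum_eq_sum_Ico_succ_bot hp]
  simp only [pow_zero, mul_one, zero_add]
  ring

end root

/-! ### the four sums -/

section final

variable [CharZero K] {q : K}

theorem tsum_F3_int (hq0 : q ≠ 0) (hq1 : ‖q‖ < 1) : ∑' n : ℤ, F3 (q ^ n) = 2 * sK 3 q := by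
  rw [good_F3.tsum_int_pow hq0 hq1, ← tsum_Fn_pow (by norm_num) hq1]
  simp only [F3_eq_Fn]

theorem tsum_F5_int (hq0 : q ≠ 0) (hq1 : ‖q‖ < 1) : ∑' n : ℤ, F5 (q ^ n) = 2 * sK 5 q := by
  rw [good_F5.tsum_int_pow hq0 hq1, ← tsum_Fn_pow (by norm_num) hq1]
  simp only [F5_eq_Fn]

/-- **`∑_{ζ^p = 1, ζ ≠ 1} S3(q, ζ) = (p⁴-1)/120 + 2p⁴ s₃(q^p) - 2 s₃(q)`**. -/
theorem sum_S3_mu (hq0 : q ≠ 0) (hq1 : ‖q‖ < 1) {ζ : K} {p : ℕ} (hζ : IsPrimitiveRoot ζ p)
    (hp : 0 < p) :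
    ∑ k ∈ Ico 1 p, S3 q (ζ ^ k)
      = ((p : K) ^ 4 - 1) / 120 + 2 * (p : K) ^ 4 * sK 3 (q ^ p) - 2 * sK 3 q := by
  have hqp0 : q ^ p ≠ 0 := pow_ne_zero p hq0
  have hqp1 : ‖q ^ p‖ < 1 := by
    rw [norm_pow]; exact pow_lt_one₀ (norm_nonneg _) hq1 hp.ne'
  have h := good_F3.sum_mu hq0 hq1 hζ hp (P := (p : K) ^ 4) (c := ((p : K) ^ 4 - 1) / 120)
    (fun w hw => by simpa only [F3_eq_Fn] using sum_Fn_distrib hζ hp hw 3)
    (by simpa only [F3_eq_Fn] using sum_F3_roots hζ hp)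
  simp only [S3]
  rw [h, tsum_F3_int hqp0 hqp1, tsum_F3_int hq0 hq1]
  ring

/-- **`∑_{ζ^p = 1, ζ ≠ 1} S5(q, ζ) = -(p⁶-1)/252 + 2p⁶ s₅(q^p) - 2 s₅(q)`**. -/
theorem sum_S5_mu (hq0 : q ≠ 0) (hq1 : ‖q‖ < 1) {ζ : K} {p : ℕ} (hζ : IsPrimitiveRoot ζ p)
    (hp : 0 < p) :
    ∑ k ∈ Ico 1 p, S5 q (ζ ^ k)
      = -((p : K) ^ 6 - 1) / 252 + 2 * (p : K) ^ 6 * sK 5 (q ^ p) - 2 * sK 5 q := by
  have hqp0 : q ^ p ≠ 0 := pow_ne_zero p hq0
  have hqp1 : ‖q ^ p‖ < 1 := by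
    rw [norm_pow]; exact pow_lt_one₀ (norm_nonneg _) hq1 hp.ne'
  have h := good_F5.sum_mu hq0 hq1 hζ hp (P := (p : K) ^ 6) (c := -((p : K) ^ 6 - 1) / 252)
    (fun w hw => by simpa only [F5_eq_Fn] using sum_Fn_distrib hζ hp hw 5)
    (by simpa only [F5_eq_Fn] using sum_F5_roots hζ hp)
  simp only [S5]
  rw [h, tsum_F5_int hqp0 hqp1, tsum_F5_int hq0 hq1]
  ring

/-- **`∑_{0<k<p} S3(t^p, t^k) = 2 s₃(t) - 2 s₃(t^p)`**. -/
theorem sum_S3_root {t : K} (ht0 : t ≠ 0) (ht1 : ‖t‖ < 1) {p : ℕ} (hp : 0 < p) :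
    ∑ k ∈ Ico 1 p, S3 (t ^ p) (t ^ k) = 2 * sK 3 t - 2 * sK 3 (t ^ p) := by
  have htp0 : t ^ p ≠ 0 := pow_ne_zero p ht0
  have htp1 : ‖t ^ p‖ < 1 := by
    rw [norm_pow]; exact pow_lt_one₀ (norm_nonneg _) ht1 hp.ne'
  simp only [S3]
  rw [good_F3.sum_root ht0 ht1 hp, tsum_F3_int ht0 ht1, tsum_F3_int htp0 htp1]

/-- **`∑_{0<k<p} S5(t^p, t^k) = 2 s₅(t) - 2 s₅(t^p)`**. -/
theorem sum_S5_root {t : K} (ht0 : t ≠ 0) (ht1 : ‖t‖ < 1) {p : ℕ} (hp : 0 < p) :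
    ∑ k ∈ Ico 1 p, S5 (t ^ p) (t ^ k) = 2 * sK 5 t - 2 * sK 5 (t ^ p) := by
  have htp0 : t ^ p ≠ 0 := pow_ne_zero p ht0
  have htp1 : ‖t ^ p‖ < 1 := by
    rw [norm_pow]; exact pow_lt_one₀ (norm_nonneg _) ht1 hp.ne'
  simp only [S5]
  rw [good_F5.sum_root ht0 ht1 hp, tsum_F5_int ht0 ht1, tsum_F5_int htp0 htp1]

end final

end Fermat.Agent.GZ.Tate.T5
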