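/-
GATE-Z (S15) / [MOD-beta] (T5), PART C (helper37): **the two Vélu sums on the Tate curve**.

For a Weierstrass curve `W` and the `x`-coordinates `x i` of the nonzero points of a finite subgroup
`C` (FULL system, `i ∈ s`), Vélu's quotient curve has
`c₄' = c₄ + 120 ∑ t_i`, `c₆' = c₆ + 252 ∑ (b₂ t_i + 12 w_i)`,
`t_i = 6x² + b₂x + b₄`, `w_i = 10x³ + 2b₂x² + 3b₄x + b₆`
(with a half system `s`: `240`, `504`; see `veluC4`, `veluC6`, `veluC4F_eq`, `veluC6F_eq`).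

On the Tate curve `t = D²X`, `b₂ t + 12 w = D⁴X` (`D = u d/du`): these are the two identities
`I2 q`, `I4 q` below (BINDERS here).  With them and `GZ/Tate/T5/Series`:

* `velu_mu`   : `C = P(μ_p)`      ⟹ `c₄' = p⁴ (1 + 240 s₃(q^p))`, `c₆' = -p⁶ (1 - 504 s₅(q^p))`;
* `velu_root` : `C = ⟨P(t)⟩`, `q = t^p` ⟹ `c₄' = 1 + 240 s₃(t)`, `c₆' = -(1 - 504 s₅(t))`.
-/
import Mathlib
import Fermat.Agent.GZ.Tate.Defs
import Fermat.Agent.GZ.Tate.T5.Series

set_option autoImplicit false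

noncomputable section

open Finset Filter Topology

namespace Fermat.Agent.GZ.Tate.T5

open Fermat.Agent.GZ.Tate

/-! ### Vélu's invariants (any commutative ring) -/

section defs

variable {R : Type*} [CommRing R] {ι : Type*}

/-- Vélu's `t_Q = 6x² + b₂x + b₄` (for a point `Q` of odd order). -/
def veluT (W : WeierstrassCurve R) (x : R) : R := 6 * x ^ 2 + W.b₂ * x + W.b₄

/-- Vélu's `u_Q + x_Q t_Q = 10x³ + 2b₂x² + 3b₄x + b₆`. -/
def veluW (W : WeierstrassCurve R) (x : R) : R :=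
  10 * x ^ 3 + 2 * W.b₂ * x ^ 2 + 3 * W.b₄ * x + W.b₆

/-- `c₄` of Vélu's quotient curve, `s` a HALF system of the nonzero points of the subgroup. -/
def veluC4 (W : WeierstrassCurve R) (s : Finset ι) (x : ι → R) : R :=
  W.c₄ + 240 * ∑ i ∈ s, veluT W (x i)

/-- `c₆` of Vélu's quotient curve, `s` a HALF system. -/
def veluC6 (W : WeierstrassCurve R) (s : Finset ι) (x : ι → R) : R :=
  W.c₆ + 504 * (W.b₂ * ∑ i ∈ s, veluT W (x i) + 12 * ∑ i ∈ s, veluW W (x i))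

/-- `c₄` of Vélu's quotient curve, `s` the FULL system of nonzero points. -/
def veluC4F (W : WeierstrassCurve R) (s : Finset ι) (x : ι → R) : R :=
  W.c₄ + 120 * ∑ i ∈ s, veluT W (x i)

/-- `c₆` of Vélu's quotient curve, `s` the FULL system of nonzero points. -/
def veluC6F (W : WeierstrassCurve R) (s : Finset ι) (x : ι → R) : R :=
  W.c₆ + 252 * ∑ i ∈ s, (W.b₂ * veluT W (x i) + 12 * veluW W (x i))

/-- a sum over `0 < k < p` of a function symmetric under `k ↦ p - k` is twice the sum over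
`0 < k ≤ (p-1)/2` (`p` odd). -/
theorem sum_Ico_eq_two_mul_half {p : ℕ} (hp : Odd p) (f : ℕ → R)
    (hsym : ∀ k ∈ Ico 1 p, f (p - k) = f k) :
    ∑ k ∈ Ico 1 p, f k = 2 * ∑ k ∈ Ico 1 ((p + 1) / 2), f k := by
  obtain ⟨m, rfl⟩ := hp
  have hhalf : (2 * m + 1 + 1) / 2 = m + 1 := by omega
  rw [hhalf]
  have hsplit : ∑ k ∈ Ico 1 (2 * m + 1), f k
      = ∑ k ∈ Ico 1 (m + 1), f k + ∑ k ∈ Ico (m + 1) (2 * m + 1), f k :=
    (sum_Ico_consecutive f (by omega) (by omega)).symm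
  have hrefl : ∑ k ∈ Ico (m + 1) (2 * m + 1), f k = ∑ k ∈ Ico 1 (m + 1), f k := by
    refine sum_bij' (fun k _ => 2 * m + 1 - k) (fun k _ => 2 * m + 1 - k) ?_ ?_ ?_ ?_ ?_
    · intro k hk; rw [mem_Ico] at hk ⊢; omega
    · intro k hk; rw [mem_Ico] at hk ⊢; omega
    · intro k hk; rw [mem_Ico] at hk; omega
    · intro k hk; rw [mem_Ico] at hk; omega
    · intro k hk
      rw [mem_Ico] at hk
      exact (hsym k (mem_Ico.2 ⟨by omega, by omega⟩)).symm
  rw [hsplit, hrefl]; ring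

theorem veluC4F_eq {p : ℕ} (hp : Odd p) (W : WeierstrassCurve R) (x : ℕ → R)
    (hsym : ∀ k ∈ Ico 1 p, x (p - k) = x k) :
    veluC4F W (Ico 1 p) x = veluC4 W (Ico 1 ((p + 1) / 2)) x := by
  unfold veluC4F veluC4
  rw [sum_Ico_eq_two_mul_half hp (fun k => veluT W (x k))
    (fun k hk => by rw [hsym k hk])]
  ring

theorem veluC6F_eq {p : ℕ} (hp : Odd p) (W : WeierstrassCurve R) (x : ℕ → R)
    (hsym : ∀ k ∈ Ico 1 p, x (p - k) = x k) :
    veluC6F W (Ico 1 p) x = veluC6 W (Ico 1 ((p + 1) / 2)) x := by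
  unfold veluC6F veluC6
  rw [sum_Ico_eq_two_mul_half hp (fun k => W.b₂ * veluT W (x k) + 12 * veluW W (x k))
    (fun k hk => by rw [hsym k hk]), sum_add_distrib, ← mul_sum, ← mul_sum]
  ring

end defs

/-! ### the Tate curve -/

variable {K : Type*} [NormedField K] [IsUltrametricDist K] [CompleteSpace K]

section curve

variable {q : K}

omit [CompleteSpace K] in
theorem norm_sTerm_le (k : ℕ) (hq1 : ‖q‖ < 1) (n : ℕ) : ‖sTerm k q n‖ ≤ ‖q‖ ^ (n + 1) := by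
  have hw : ‖q ^ (n + 1)‖ < 1 := by
    rw [norm_pow]; exact pow_lt_one₀ (norm_nonneg _) hq1 (Nat.succ_ne_zero n)
  unfold sTerm
  rw [norm_div, norm_one_sub_of_lt hw, div_one, norm_mul, norm_pow, norm_pow]
  have h1 : ‖((n + 1 : ℕ) : K)‖ ^ k ≤ 1 :=
    pow_le_one₀ (norm_nonneg _) (IsUltrametricDist.norm_natCast_le_one K _)
  exact mul_le_of_le_one_left (pow_nonneg (norm_nonneg _) _) h1

theorem summable_sTerm_T5 (k : ℕ) (hq1 : ‖q‖ < 1) : Summable (sTerm k q) := by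
  have hg : Summable (fun n : ℕ => ‖q‖ ^ (n + 1)) :=
    (summable_nat_add_iff (f := fun n : ℕ => ‖q‖ ^ n) 1).2
      (summable_geometric_of_lt_one (norm_nonneg _) hq1)
  exact Summable.of_norm_bounded hg (norm_sTerm_le k hq1)

omit [IsUltrametricDist K] [CompleteSpace K] in
theorem twelve_mul_a6Term (q : K) (n : ℕ) :
    12 * a6Term q n = 5 * sTerm 3 q n + 7 * sTerm 5 q n := by
  have h : (12 : K) * (a6Coeff (n + 1) : K)
      = 5 * ((n + 1 : ℕ) : K) ^ 3 + 7 * ((n + 1 : ℕ) : K) ^ 5 := by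
    exact_mod_cast congrArg (Nat.cast (R := K)) (a6Coeff_spec (n + 1))
  unfold a6Term sTerm
  rw [← mul_div_assoc, ← mul_assoc, h]
  ring

theorem twelve_mul_a6 (hq1 : ‖q‖ < 1) : 12 * a6 q = -(5 * sK 3 q + 7 * sK 5 q) := by
  have h3 := summable_sTerm_T5 3 hq1
  have h5 := summable_sTerm_T5 5 hq1
  unfold a6 sK
  rw [mul_neg, ← tsum_mul_left, tsum_congr (twelve_mul_a6Term q),
    (h3.mul_left 5).tsum_add (h5.mul_left 7), tsum_mul_left, tsum_mul_left]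

omit [IsUltrametricDist K] [CompleteSpace K] in
theorem tateCurve_b₂ (q : K) : (tateCurve q).b₂ = 1 := by
  simp [tateCurve, WeierstrassCurve.b₂]

omit [IsUltrametricDist K] [CompleteSpace K] in
theorem tateCurve_b₄ (q : K) : (tateCurve q).b₄ = 2 * a4 q := by
  simp [tateCurve, WeierstrassCurve.b₄]

omit [IsUltrametricDist K] [CompleteSpace K] in
theorem tateCurve_b₆ (q : K) : (tateCurve q).b₆ = 4 * a6 q := by
  simp [tateCurve, WeierstrassCurve.b₆]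

omit [IsUltrametricDist K] [CompleteSpace K] in
theorem tateCurve_c₄ (q : K) : (tateCurve q).c₄ = 1 + 240 * sK 3 q := by
  rw [WeierstrassCurve.c₄, tateCurve_b₂, tateCurve_b₄, a4]; ring

theorem tateCurve_c₆ (hq1 : ‖q‖ < 1) : (tateCurve q).c₆ = -(1 - 504 * sK 5 q) := by
  rw [WeierstrassCurve.c₆, tateCurve_b₂, tateCurve_b₄, tateCurve_b₆, a4]
  linear_combination (-72 : K) * twelve_mul_a6 hq1

end curve

/-! ### the two identities `D²X = 6X² + X + 2a₄`, `D⁴X = …` as binders -/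

/-- **(I2)** `D²X = 6X² + X + 2a₄`. -/
def I2 (q : K) : Prop :=
  ∀ u : K, IsAdm q u → S3 q u = 6 * X q u ^ 2 + X q u + 2 * a4 q

/-- **(I4)** `D⁴X = 120X³ + 30X² + (72a₄ + 1)X + 48a₆ + 2a₄`. -/
def I4 (q : K) : Prop :=
  ∀ u : K, IsAdm q u →
    S5 q u = 120 * X q u ^ 3 + 30 * X q u ^ 2 + (72 * a4 q + 1) * X q u + 48 * a6 q + 2 * a4 q

section assemble

variable {q : K}

omit [CompleteSpace K] in
theorem I2.veluT_eq (h : I2 q) {u : K} (hu : IsAdm q u) :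
    veluT (tateCurve q) (X q u) = S3 q u := by
  rw [h u hu, veluT, tateCurve_b₂, tateCurve_b₄]; ring

omit [CompleteSpace K] in
theorem I4.velu_eq (h : I4 q) {u : K} (hu : IsAdm q u) :
    (tateCurve q).b₂ * veluT (tateCurve q) (X q u) + 12 * veluW (tateCurve q) (X q u)
      = S5 q u := by
  rw [h u hu, veluT, veluW, tateCurve_b₂, tateCurve_b₄, tateCurve_b₆]; ring

omit [IsUltrametricDist K] [CompleteSpace K] in
/-- a root of unity `≠ 1` is an admissible parameter. -/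
theorem isAdm_root_of_unity (hq0 : q ≠ 0) (hq1 : ‖q‖ < 1) {ζ : K} {p : ℕ}
    (hζ : IsPrimitiveRoot ζ p) {k : ℕ} (hk : k ∈ Ico 1 p) : IsAdm q (ζ ^ k) := by
  rw [mem_Ico] at hk
  have hp : 0 < p := by omega
  have hζ0 : ζ ≠ 0 := hζ.ne_zero hp.ne'
  have hζk : ‖ζ ^ k‖ = 1 := by
    have h1 : (ζ ^ k) ^ p = 1 := by
      rw [← pow_mul, mul_comm, pow_mul, hζ.pow_eq_one, one_pow]
    have h2 : ‖ζ ^ k‖ ^ p = 1 := by rw [← norm_pow, h1, norm_one]
    exact (pow_eq_one_iff_of_nonneg (norm_nonneg _) hp.ne').1 h2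
  refine ⟨pow_ne_zero k hζ0, fun n hn => ?_⟩
  by_cases h0 : n = 0
  · subst h0
    rw [zpow_zero, one_mul] at hn
    exact hζ.pow_ne_one_of_pos_of_lt (by omega) hk.2 hn
  · have h1 : ‖q‖ ^ n = 1 := by
      have := congrArg norm hn
      rwa [norm_mul, hζk, mul_one, norm_zpow, norm_one] at this
    exact h0 ((zpow_eq_one_iff_right₀ (norm_nonneg q) hq1.ne).1 h1)

omit [IsUltrametricDist K] [CompleteSpace K] in
/-- `t^k`, `0 < k < p`, is an admissible parameter for `q = t^p`. -/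
theorem isAdm_root (t : K) (ht0 : t ≠ 0) (ht1 : ‖t‖ < 1) {p k : ℕ} (hk : k ∈ Ico 1 p) :
    IsAdm (t ^ p) (t ^ k) := by
  rw [mem_Ico] at hk
  refine ⟨pow_ne_zero k ht0, fun n hn => ?_⟩
  have h1 : t ^ (n * (p : ℤ) + (k : ℤ)) = 1 := by
    rw [zpow_add₀ ht0, zpow_natCast, mul_comm n (p : ℤ), zpow_mul, zpow_natCast]; exact hn
  have h2 : ‖t‖ ^ (n * (p : ℤ) + (k : ℤ)) = 1 := by rw [← norm_zpow, h1, norm_one]
  have h3 := (zpow_eq_one_iff_right₀ (norm_nonneg t) ht1.ne).1 h2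
  have hk1 : (1 : ℤ) ≤ k := by exact_mod_cast hk.1
  have hk2 : (k : ℤ) < p := by exact_mod_cast hk.2
  have hp0 : (0 : ℤ) < p := by omega
  rcases lt_trichotomy n 0 with hn0 | hn0 | hn0
  · have : n * (p : ℤ) ≤ -1 * p := by
      apply mul_le_mul_of_nonneg_right _ hp0.le; omega
    omega
  · subst hn0; omega
  · have : 0 ≤ n * (p : ℤ) := mul_nonneg hn0.le hp0.le
    omega

variable [CharZero K]

/-- **Vélu for `C = P(μ_p)`**: `c₄' = p⁴ E₄(q^p)`, `c₆' = -p⁶ E₆(q^p)`. -/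
theorem velu_mu (hq0 : q ≠ 0) (hq1 : ‖q‖ < 1) {ζ : K} {p : ℕ} (hζ : IsPrimitiveRoot ζ p)
    (hp : 0 < p) (h2 : I2 q) (h4 : I4 q) :
    veluC4F (tateCurve q) (Ico 1 p) (fun k => X q (ζ ^ k))
        = (p : K) ^ 4 * (1 + 240 * sK 3 (q ^ p)) ∧
      veluC6F (tateCurve q) (Ico 1 p) (fun k => X q (ζ ^ k))
        = -((p : K) ^ 6 * (1 - 504 * sK 5 (q ^ p))) := by
  constructor
  · unfold veluC4F
    rw [sum_congr rfl fun k hk => h2.veluT_eq (isAdm_root_of_unity hq0 hq1 hζ hk),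
      sum_S3_mu hq0 hq1 hζ hp, tateCurve_c₄]
    ring
  · unfold veluC6F
    rw [sum_congr rfl fun k hk => h4.velu_eq (isAdm_root_of_unity hq0 hq1 hζ hk),
      sum_S5_mu hq0 hq1 hζ hp, tateCurve_c₆ hq1]
    ring

/-- **Vélu for `C = ⟨P(t)⟩`, `q = t^p`**: `c₄' = E₄(t)`, `c₆' = -E₆(t)`. -/
theorem velu_root {t : K} (ht0 : t ≠ 0) (ht1 : ‖t‖ < 1) {p : ℕ} (hp : 0 < p)
    (h2 : I2 (t ^ p)) (h4 : I4 (t ^ p)) :
    veluC4F (tateCurve (t ^ p)) (Ico 1 p) (fun k => X (t ^ p) (t ^ k))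
        = 1 + 240 * sK 3 t ∧
      veluC6F (tateCurve (t ^ p)) (Ico 1 p) (fun k => X (t ^ p) (t ^ k))
        = -(1 - 504 * sK 5 t) := by
  have htp1 : ‖t ^ p‖ < 1 := by
    rw [norm_pow]; exact pow_lt_one₀ (norm_nonneg _) ht1 hp.ne'
  constructor
  · unfold veluC4F
    rw [sum_congr rfl fun k hk => h2.veluT_eq (isAdm_root t ht0 ht1 hk),
      sum_S3_root ht0 ht1 hp, tateCurve_c₄]
    ring
  · unfold veluC6F
    rw [sum_congr rfl fun k hk => h4.velu_eq (isAdm_root t ht0 ht1 hk),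
      sum_S5_root ht0 ht1 hp, tateCurve_c₆ htp1]
    ring

end assemble

end Fermat.Agent.GZ.Tate.T5
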