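/-
GATE-Z (S15) / [MOD-beta] (T5), BRIDGE (helper37): the two Vélu sums of `GZ/Tate/T5/Velu` in the
vocabulary of helper43's `GZ/Tate/Velu/Cov` (`veluC4 W p x`, `veluC6 W p x`) and of helper91's
`T6` (`ev q e4Z`, `ev q e6Z`): the EXACT hypotheses `h4`, `h6` of `T6.t6_mu` / `T6.t6_root`.
-/
import Mathlib
import Fermat.Agent.GZ.Tate.T5.Velu
import Fermat.Agent.GZ.Tate.Velu.Cov
import Fermat.Agent.GZ.Tate.T0.EvalFam

set_option autoImplicit false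

noncomputable section

open Finset

namespace Fermat.Agent.GZ.Tate.T5

open Fermat.Agent.GZ.Tate Fermat.Agent.GZ.Tate.T0 Fermat.Agent.S16.L1h67

section defs

variable {R : Type*} [CommRing R]

theorem veluC4F_eq_cov (W : WeierstrassCurve R) (p : ℕ) (x : ℕ → R) :
    veluC4F W (Ico 1 p) x = Velu.veluC4 W p x := rfl

theorem veluC6F_eq_cov (W : WeierstrassCurve R) (p : ℕ) (x : ℕ → R) :
    veluC6F W (Ico 1 p) x = Velu.veluC6 W p x := rfl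

end defs

variable {K : Type*} [NormedField K] [IsUltrametricDist K] [CompleteSpace K] [CharZero K]

theorem ev_e4Z_eq {q : K} (hq : ‖q‖ < 1) : ev q e4Z = 1 + 240 * sK 3 q := by
  rw [← e4K_evalFamily hq, e4K_evalFamily_eq hq]

theorem ev_e6Z_eq {q : K} (hq : ‖q‖ < 1) : ev q e6Z = 1 - 504 * sK 5 q := by
  rw [← e6K_evalFamily hq, e6K_evalFamily_eq hq]

/-- **Vélu for `C = P(μ_p)` in `Velu`/`T6` vocabulary** (`h4`, `h6` of `T6.t6_mu`). -/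
theorem velu_mu_ev {q : K} (hq0 : q ≠ 0) (hq1 : ‖q‖ < 1) {ζ : K} {p : ℕ}
    (hζ : IsPrimitiveRoot ζ p) (hp : 0 < p) (h2 : I2 q) (h4 : I4 q) :
    Velu.veluC4 (tateCurve q) p (fun k => X q (ζ ^ k)) = (p : K) ^ 4 * ev (q ^ p) e4Z ∧
      Velu.veluC6 (tateCurve q) p (fun k => X q (ζ ^ k)) = -((p : K) ^ 6 * ev (q ^ p) e6Z) ∧
      Velu.veluC6 (tateCurve q) p (fun k => X q (ζ ^ k)) ^ 2
        = (p : K) ^ 12 * ev (q ^ p) e6Z ^ 2 := by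
  have hqp1 : ‖q ^ p‖ < 1 := by
    rw [norm_pow]; exact pow_lt_one₀ (norm_nonneg _) hq1 hp.ne'
  obtain ⟨h1, h3⟩ := velu_mu hq0 hq1 hζ hp h2 h4
  rw [veluC4F_eq_cov] at h1
  rw [veluC6F_eq_cov] at h3
  refine ⟨by rw [h1, ev_e4Z_eq hqp1], by rw [h3, ev_e6Z_eq hqp1], ?_⟩
  rw [h3, ev_e6Z_eq hqp1]; ring

/-- **Vélu for `C = ⟨P(t)⟩`, `q = t^p`, in `Velu`/`T6` vocabulary** (`h4`, `h6` of `T6.t6_root`). -/
theorem velu_root_ev {t : K} (ht0 : t ≠ 0) (ht1 : ‖t‖ < 1) {p : ℕ} (hp : 0 < p)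
    (h2 : I2 (t ^ p)) (h4 : I4 (t ^ p)) :
    Velu.veluC4 (tateCurve (t ^ p)) p (fun k => X (t ^ p) (t ^ k)) = ev t e4Z ∧
      Velu.veluC6 (tateCurve (t ^ p)) p (fun k => X (t ^ p) (t ^ k)) = -ev t e6Z ∧
      Velu.veluC6 (tateCurve (t ^ p)) p (fun k => X (t ^ p) (t ^ k)) ^ 2 = ev t e6Z ^ 2 := by
  obtain ⟨h1, h3⟩ := velu_root ht0 ht1 hp h2 h4
  rw [veluC4F_eq_cov] at h1
  rw [veluC6F_eq_cov] at h3
  refine ⟨by rw [h1, ev_e4Z_eq ht1], by rw [h3, ev_e6Z_eq ht1], ?_⟩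
  rw [h3, ev_e6Z_eq ht1]; ring

end Fermat.Agent.GZ.Tate.T5
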