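/-
GATE-Z / CELL-M3 (S12), Tate side: **Vélu sums over an arbitrary finite subgroup of the Tate curve**
(helper37).  A finite subgroup `C` of `K^×/q^ℤ` has preimage `Λ = μ_N × h^ℤ` with `q = ζ^a h^M`
(`ζ` a primitive `N`-th root of unity, `‖h‖ < 1`), `#C = N M`, representatives `ζ^i h^j`
(`i < N`, `j < M`).  For `F = F₃, F₅`:

  `∑_{(i,j) ≠ (0,0)} ∑_{n ∈ ℤ} F(qⁿ ζ^i h^j)
      = ∑_{η ∈ μ_N ∖ 1} F(η) + N^{k+1} ∑_{m ∈ ℤ} F((h^N)^m) - ∑_{n ∈ ℤ} F(qⁿ)`,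

hence (with (I2), (I4))  `c₄(E_q / C) = N⁴ E₄(h^N)`, `c₆(E_q / C) = -N⁶ E₆(h^N)`:

* `Good.sum_mixed`  : the abstract summation lemma;
* `sum_S3_mixed`, `sum_S5_mixed`;
* `isAdm_mixed`, `velu_mixed`.

The cases `M = 1` (`C = μ_N`) and `N = 1` (`C = ⟨t⟩`, `t^M = q`) are `velu_mu`, `velu_root` of
`T5/Velu.lean`.
-/
import Mathlib
import Fermat.Agent.GZ.Tate.T5.Velu

set_option autoImplicit false

noncomputable section

namespace Fermat.Agent.GZ.Tate.T5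

open Finset Fermat.Agent.GZ.Tate Fermat.Agent.GZ.Tate.T5.RootSums

variable {K : Type*} [NormedField K] [IsUltrametricDist K] [CompleteSpace K]

/-! ### two reindexing lemmas -/

omit [IsUltrametricDist K] in
/-- `∑_{m ∈ ℤ} g(m) = ∑_{j < M} ∑_{n ∈ ℤ} g(nM + j)`. -/
theorem tsum_int_divMod {g : ℤ → K} (hg : Summable g) {M : ℕ} (hM : 0 < M) :
    ∑' m : ℤ, g m = ∑ j ∈ range M, ∑' n : ℤ, g (n * (M : ℤ) + (j : ℤ)) := by
  have : NeZero M := ⟨hM.ne'⟩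
  have hsk : ∀ j : ℕ, Summable (fun n : ℤ => g (n * (M : ℤ) + (j : ℤ))) := fun j => by
    refine hg.comp_injective (i := fun n : ℤ => n * (M : ℤ) + (j : ℤ)) fun n n' h => ?_
    have hM0 : (M : ℤ) ≠ 0 := by exact_mod_cast hM.ne'
    have h' : n * (M : ℤ) = n' * (M : ℤ) := by simpa using h
    exact mul_right_cancel₀ hM0 h'
  have hsum2 : Summable (g ∘ (Int.divModEquiv M).symm) :=
    (Equiv.summable_iff (Int.divModEquiv M).symm).2 hg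
  have h1 : ∑' m : ℤ, g m = ∑' x : ℤ × Fin M, (g ∘ (Int.divModEquiv M).symm) x :=
    ((Int.divModEquiv M).symm.tsum_eq g).symm
  have h2 : ∑' x : ℤ × Fin M, (g ∘ (Int.divModEquiv M).symm) x
      = ∑' a : ℤ, ∑ b : Fin M, g (a * (M : ℤ) + ((b : ℕ) : ℤ)) := by
    rw [hsum2.tsum_prod]
    refine tsum_congr fun a => ?_
    rw [tsum_fintype]
    refine Finset.sum_congr rfl fun b _ => ?_
    rw [Function.comp_apply, Int.divModEquiv_symm_apply]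
  have h3 : ∑' a : ℤ, ∑ b : Fin M, g (a * (M : ℤ) + ((b : ℕ) : ℤ))
      = ∑ b : Fin M, ∑' a : ℤ, g (a * (M : ℤ) + ((b : ℕ) : ℤ)) :=
    Summable.tsum_finsetSum fun b _ => hsk b
  have h4 : ∑ b : Fin M, ∑' a : ℤ, g (a * (M : ℤ) + ((b : ℕ) : ℤ))
      = ∑ j ∈ range M, ∑' a : ℤ, g (a * (M : ℤ) + (j : ℤ)) :=
    Fin.sum_univ_eq_sum_range (fun j => ∑' a : ℤ, g (a * (M : ℤ) + (j : ℤ))) M
  rw [h1, h2, h3, h4]

omit [IsUltrametricDist K] [CompleteSpace K] in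
/-- the sum over all `N`-th roots of unity is invariant under `w ↦ ζ w`. -/
theorem rootSum_mul (F : K → K) {ζ : K} {N : ℕ} (hζN : ζ ^ N = 1) (w : K) :
    ∑ i ∈ range N, F (ζ ^ i * (ζ * w)) = ∑ i ∈ range N, F (ζ ^ i * w) := by
  have h1 := Finset.sum_range_succ' (fun i => F (ζ ^ i * w)) N
  have h2 := Finset.sum_range_succ (fun i => F (ζ ^ i * w)) N
  rw [h2, hζN, pow_zero] at h1
  have h3 : ∑ i ∈ range N, F (ζ ^ i * (ζ * w)) = ∑ i ∈ range N, F (ζ ^ (i + 1) * w) :=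
    Finset.sum_congr rfl fun i _ => by rw [pow_succ, mul_assoc]
  rw [h3]
  exact (add_right_cancel h1).symm

omit [IsUltrametricDist K] [CompleteSpace K] in
/-- the sum over all `N`-th roots of unity is invariant under `w ↦ ζ^z w`, `z ∈ ℤ`. -/
theorem rootSum_zpow_mul (F : K → K) {ζ : K} {N : ℕ} (hN : 0 < N) (hζN : ζ ^ N = 1) (z : ℤ)
    (w : K) : ∑ i ∈ range N, F (ζ ^ i * (ζ ^ z * w)) = ∑ i ∈ range N, F (ζ ^ i * w) := by
  have hζ0 : ζ ≠ 0 := by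
    intro h
    rw [h, zero_pow hN.ne'] at hζN
    exact zero_ne_one hζN
  induction z using Int.induction_on with
  | zero => rw [zpow_zero, one_mul]
  | succ k ih =>
    rw [zpow_add₀ hζ0, zpow_one, mul_comm (ζ ^ (k : ℤ)) ζ, mul_assoc, rootSum_mul F hζN, ih]
  | pred k ih =>
    rw [← rootSum_mul F hζN (ζ ^ (-(k : ℤ) - 1) * w), ← mul_assoc, ← zpow_one_add₀ hζ0]
    have : (1 : ℤ) + (-(k : ℤ) - 1) = -(k : ℤ) := by ring
    rw [this, ih]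

/-! ### the abstract mixed sum -/

section mixed

variable {F : K → K}

/-- **the mixed sum**, abstract form: for `q = ζ^a h^M`, a distribution relation with multiplier
`P` and the constant `c = ∑_{η ∈ μ_N, η ≠ 1} F(η)` give
`∑_{(i,j) ≠ (0,0)} ∑_{n ∈ ℤ} F(qⁿ ζ^i h^j) = c + P ∑_{m ∈ ℤ} F((h^N)^m) - ∑_{n ∈ ℤ} F(qⁿ)`. -/
theorem Good.sum_mixed (hF : Good F) {q ζ h : K} {N M : ℕ} (hq0 : q ≠ 0) (hq1 : ‖q‖ < 1)
    (hζ : IsPrimitiveRoot ζ N) (hN : 0 < N) (hM : 0 < M) (hh0 : h ≠ 0) (hh1 : ‖h‖ < 1)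
    (a : ℤ) (hq : q = ζ ^ a * h ^ M) {P c : K}
    (hdist : ∀ w : K, w ^ N ≠ 1 → ∑ i ∈ range N, F (ζ ^ i * w) = P * F (w ^ N))
    (hc : ∑ i ∈ Ico 1 N, F (ζ ^ i) = c) :
    ∑ x ∈ (range N ×ˢ range M).erase (0, 0), ∑' n : ℤ, F (q ^ n * (ζ ^ x.1 * h ^ x.2))
      = c + P * ∑' m : ℤ, F ((h ^ N) ^ m) - ∑' n : ℤ, F (q ^ n) := by
  have hζN : ζ ^ N = 1 := hζ.pow_eq_one
  have hζ0 : ζ ≠ 0 := hζ.ne_zero hN.ne'
  -- the function `m ↦ ∑_i F(ζ^i h^m)`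
  set gG : ℤ → K := fun m => ∑ i ∈ range N, F (ζ ^ i * h ^ m) with hgG
  have hsi : ∀ i : ℕ, Summable (fun m : ℤ => F (ζ ^ i * h ^ m)) := fun i => by
    refine (hF.summable_int hh0 hh1 (pow_ne_zero i hζ0)).congr fun m => ?_
    rw [mul_comm]
  have hgGs : Summable gG := summable_sum fun i _ => hsi i
  -- step 1: remove the term `(0,0)`
  have hmem : ((0 : ℕ), (0 : ℕ)) ∈ range N ×ˢ range M := by
    rw [mem_product]; exact ⟨mem_range.2 hN, mem_range.2 hM⟩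
  rw [Finset.sum_erase_eq_sub hmem]
  simp only [pow_zero, mul_one]
  -- step 2: the full sum, row by row
  have hrow : ∀ j ∈ range M, ∑ i ∈ range N, ∑' n : ℤ, F (q ^ n * (ζ ^ i * h ^ j))
      = ∑' n : ℤ, gG (n * (M : ℤ) + (j : ℤ)) := by
    intro j _
    rw [← Summable.tsum_finsetSum fun i _ =>
      hF.summable_int hq0 hq1 (mul_ne_zero (pow_ne_zero i hζ0) (pow_ne_zero j hh0))]
    refine tsum_congr fun n => ?_
    have hqn : q ^ n = ζ ^ (a * n) * h ^ (n * (M : ℤ)) := by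
      rw [hq, mul_zpow, ← zpow_mul, ← zpow_natCast h M, ← zpow_mul, mul_comm (M : ℤ) n]
    have hpt : ∀ i : ℕ, q ^ n * (ζ ^ i * h ^ j)
        = ζ ^ i * (ζ ^ (a * n) * h ^ (n * (M : ℤ) + (j : ℤ))) := fun i => by
      rw [hqn, zpow_add₀ hh0, zpow_natCast]
      ring
    simp only [hpt]
    rw [rootSum_zpow_mul F hN hζN]
  have hfull : ∑ x ∈ range N ×ˢ range M, ∑' n : ℤ, F (q ^ n * (ζ ^ x.1 * h ^ x.2))
      = ∑' m : ℤ, gG m := by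
    rw [Finset.sum_product_right, Finset.sum_congr rfl hrow, ← tsum_int_divMod hgGs hM]
  -- step 3: `∑_m gG m` by the `μ_N`-sum for `h`
  have hmu := hF.sum_mu hh0 hh1 hζ hN hdist hc
  have hgsum : ∑' m : ℤ, gG m = c + P * ∑' m : ℤ, F ((h ^ N) ^ m) := by
    rw [hgG, Summable.tsum_finsetSum fun i _ => hsi i, range_eq_Ico,
      sum_eq_sum_Ico_succ_bot hN]
    have h0 : ∑' m : ℤ, F (ζ ^ 0 * h ^ m) = ∑' m : ℤ, F (h ^ m) := by
      refine tsum_congr fun m => ?_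
      rw [pow_zero, one_mul]
    have h1 : ∑ k ∈ Ico (0 + 1) N, ∑' m : ℤ, F (ζ ^ k * h ^ m)
        = ∑ k ∈ Ico 1 N, ∑' n : ℤ, F (h ^ n * ζ ^ k) := by
      rw [zero_add]
      refine Finset.sum_congr rfl fun k _ => tsum_congr fun m => ?_
      rw [mul_comm]
    rw [h0, h1, hmu]
    ring
  rw [hfull, hgsum]

end mixed

/-! ### the two mixed sums -/

section final

variable [CharZero K]

/-- **`∑_{(i,j) ≠ (0,0)} S3(q, ζ^i h^j) = (N⁴-1)/120 + 2N⁴ s₃(h^N) - 2 s₃(q)`** for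
`q = ζ^a h^M`. -/
theorem sum_S3_mixed {q ζ h : K} {N M : ℕ} (hq0 : q ≠ 0) (hq1 : ‖q‖ < 1)
    (hζ : IsPrimitiveRoot ζ N) (hN : 0 < N) (hM : 0 < M) (hh0 : h ≠ 0) (hh1 : ‖h‖ < 1)
    (a : ℤ) (hq : q = ζ ^ a * h ^ M) :
    ∑ x ∈ (range N ×ˢ range M).erase (0, 0), S3 q (ζ ^ x.1 * h ^ x.2)
      = ((N : K) ^ 4 - 1) / 120 + 2 * (N : K) ^ 4 * sK 3 (h ^ N) - 2 * sK 3 q := by
  have hN0 : h ^ N ≠ 0 := pow_ne_zero N hh0
  have hN1 : ‖h ^ N‖ < 1 := by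
    rw [norm_pow]; exact pow_lt_one₀ (norm_nonneg _) hh1 hN.ne'
  have h := good_F3.sum_mixed hq0 hq1 hζ hN hM hh0 hh1 a hq (P := (N : K) ^ 4)
    (c := ((N : K) ^ 4 - 1) / 120)
    (fun w hw => by simpa only [F3_eq_Fn] using sum_Fn_distrib hζ hN hw 3)
    (by simpa only [F3_eq_Fn] using sum_F3_roots hζ hN)
  simp only [S3]
  rw [h, tsum_F3_int hN0 hN1, tsum_F3_int hq0 hq1]
  ring

/-- **`∑_{(i,j) ≠ (0,0)} S5(q, ζ^i h^j) = -(N⁶-1)/252 + 2N⁶ s₅(h^N) - 2 s₅(q)`** for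
`q = ζ^a h^M`. -/
theorem sum_S5_mixed {q ζ h : K} {N M : ℕ} (hq0 : q ≠ 0) (hq1 : ‖q‖ < 1)
    (hζ : IsPrimitiveRoot ζ N) (hN : 0 < N) (hM : 0 < M) (hh0 : h ≠ 0) (hh1 : ‖h‖ < 1)
    (a : ℤ) (hq : q = ζ ^ a * h ^ M) :
    ∑ x ∈ (range N ×ˢ range M).erase (0, 0), S5 q (ζ ^ x.1 * h ^ x.2)
      = -((N : K) ^ 6 - 1) / 252 + 2 * (N : K) ^ 6 * sK 5 (h ^ N) - 2 * sK 5 q := by
  have hN0 : h ^ N ≠ 0 := pow_ne_zero N hh0
  have hN1 : ‖h ^ N‖ < 1 := by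
    rw [norm_pow]; exact pow_lt_one₀ (norm_nonneg _) hh1 hN.ne'
  have h := good_F5.sum_mixed hq0 hq1 hζ hN hM hh0 hh1 a hq (P := (N : K) ^ 6)
    (c := -((N : K) ^ 6 - 1) / 252)
    (fun w hw => by simpa only [F5_eq_Fn] using sum_Fn_distrib hζ hN hw 5)
    (by simpa only [F5_eq_Fn] using sum_F5_roots hζ hN)
  simp only [S5]
  rw [h, tsum_F5_int hN0 hN1, tsum_F5_int hq0 hq1]
  ring

end final

/-! ### Vélu for the subgroup `μ_N × ⟨h⟩ / q^ℤ` -/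

section velu

omit [IsUltrametricDist K] [CompleteSpace K] in
/-- `ζ^i h^j`, `(i,j) ≠ (0,0)`, `i < N`, `j < M`, is an admissible parameter for `q = ζ^a h^M`. -/
theorem isAdm_mixed {q ζ h : K} {N M : ℕ} (hζ : IsPrimitiveRoot ζ N) (hN : 0 < N)
    (hh0 : h ≠ 0) (hh1 : ‖h‖ < 1) (a : ℤ) (hq : q = ζ ^ a * h ^ M) {x : ℕ × ℕ}
    (hx : x ∈ (range N ×ˢ range M).erase (0, 0)) : IsAdm q (ζ ^ x.1 * h ^ x.2) := by
  obtain ⟨i, j⟩ := x
  rw [mem_erase, mem_product, mem_range, mem_range] at hx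
  obtain ⟨hne, hi, hj⟩ := hx
  simp only at hi hj ⊢
  have hζ0 : ζ ≠ 0 := hζ.ne_zero hN.ne'
  have hζ1 : ‖ζ‖ = 1 := by
    have h2 : ‖ζ‖ ^ N = 1 := by rw [← norm_pow, hζ.pow_eq_one, norm_one]
    exact (pow_eq_one_iff_of_nonneg (norm_nonneg _) hN.ne').1 h2
  have hqn : ‖q‖ = ‖h‖ ^ M := by
    rw [hq, norm_mul, norm_zpow, hζ1, one_zpow, one_mul, norm_pow]
  refine ⟨mul_ne_zero (pow_ne_zero i hζ0) (pow_ne_zero j hh0), fun n hn => ?_⟩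
  have h1 : ‖h‖ ^ ((M : ℤ) * n + (j : ℤ)) = 1 := by
    have := congrArg norm hn
    rw [norm_mul, norm_mul, norm_zpow, norm_pow, norm_pow, hζ1, one_pow, one_mul, hqn,
      norm_one] at this
    have hh : ‖h‖ ≠ 0 := norm_ne_zero_iff.2 hh0
    rw [zpow_add₀ hh, zpow_mul, zpow_natCast, zpow_natCast]
    exact this
  have h3 := (zpow_eq_one_iff_right₀ (norm_nonneg h) hh1.ne).1 h1
  have hj0 : (0 : ℤ) ≤ j := by positivity
  have hjM : (j : ℤ) < M := by exact_mod_cast hj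
  have hM0 : (0 : ℤ) < M := by omega
  have hn0 : n = 0 := by
    rcases lt_trichotomy n 0 with hlt | heq | hgt
    · have : (M : ℤ) * n ≤ (M : ℤ) * (-1) := mul_le_mul_of_nonneg_left (by omega) hM0.le
      omega
    · exact heq
    · have : (M : ℤ) * 1 ≤ (M : ℤ) * n := mul_le_mul_of_nonneg_left (by omega) hM0.le
      omega
  subst hn0
  have hj' : j = 0 := by
    have : (j : ℤ) = 0 := by simpa using h3
    exact_mod_cast this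
  subst hj'
  rw [zpow_zero, one_mul, pow_zero, mul_one] at hn
  have hi0 : i = 0 := by
    by_contra hi0
    exact hζ.pow_ne_one_of_pos_of_lt hi0 hi hn
  subst hi0
  exact hne rfl

variable [CharZero K]

/-- **Vélu for `C = (μ_N × ⟨h⟩)/q^ℤ`, `q = ζ^a h^M`**: `c₄' = N⁴ E₄(h^N)`,
`c₆' = -N⁶ E₆(h^N)`. -/
theorem velu_mixed {q ζ h : K} {N M : ℕ} (hq0 : q ≠ 0) (hq1 : ‖q‖ < 1)
    (hζ : IsPrimitiveRoot ζ N) (hN : 0 < N) (hM : 0 < M) (hh0 : h ≠ 0) (hh1 : ‖h‖ < 1)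
    (a : ℤ) (hq : q = ζ ^ a * h ^ M) (h2 : I2 q) (h4 : I4 q) :
    veluC4F (tateCurve q) ((range N ×ˢ range M).erase (0, 0))
        (fun x => X q (ζ ^ x.1 * h ^ x.2))
        = (N : K) ^ 4 * (1 + 240 * sK 3 (h ^ N)) ∧
      veluC6F (tateCurve q) ((range N ×ˢ range M).erase (0, 0))
        (fun x => X q (ζ ^ x.1 * h ^ x.2))
        = -((N : K) ^ 6 * (1 - 504 * sK 5 (h ^ N))) := by
  constructor
  · unfold veluC4F
    rw [sum_congr rfl fun x hx => h2.veluT_eq (isAdm_mixed hζ hN hh0 hh1 a hq hx),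
      sum_S3_mixed hq0 hq1 hζ hN hM hh0 hh1 a hq, tateCurve_c₄]
    ring
  · unfold veluC6F
    rw [sum_congr rfl fun x hx => h4.velu_eq (isAdm_mixed hζ hN hh0 hh1 a hq hx),
      sum_S5_mixed hq0 hq1 hζ hN hM hh0 hh1 a hq, tateCurve_c₆ hq1]
    ring

end velu

end Fermat.Agent.GZ.Tate.T5
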