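/-
GATE-Z / CELL-M3 (S12), Tate side (VELU-MIX, helper37), part 2: **Vélu sums over a CYCLIC subgroup
of the Tate curve given by a generator**.  If `g ∈ K^×` has exact order `n` modulo `q^ℤ`
(`g^k ∈ q^ℤ ↔ n ∣ k`) then `Λ = ⟨q, g⟩ = μ_N × h^ℤ` with `N = gcd(e, n)` (`g^n = q^e`), `M = n/N`,
`q = ζ^a h^M`, `g = ζ^y h^{e₀}`, and

  `∑_{0<k<n} f(g^k) = ∑_{(i,j) ≠ (0,0)} f(ζ^i h^j)`   for every `q`-periodic `f`,

so, with `T5/Mixed.lean`,  `c₄(E_q/⟨g⟩) = N⁴ E₄(s)`, `c₆(E_q/⟨g⟩) = -N⁶ E₆(s)`, `s = h^N`,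
`s^M = q^N`:

* `sum_range_cyclic`  : the reindexing;
* `exists_mixed_coords` : the structure of `⟨q, g⟩`;
* `velu_cyclic` : the Vélu invariants of `E_q / ⟨P(g)⟩` (sum over `k ∈ Ico 1 n` of `X q (g^k)`).
-/
import Mathlib
import Fermat.Agent.GZ.Tate.T5.Mixed
import Fermat.Agent.GZ.Tate.Conv

set_option autoImplicit false

noncomputable section

namespace Fermat.Agent.GZ.Tate.T5

open Finset Fermat.Agent.GZ.Tate

variable {K : Type*} [NormedField K]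

/-! ### reindexing a cyclic sum -/

section reindex

/-- `ζ^z = ζ^(z mod N)` for `ζ^N = 1`. -/
theorem zpow_emod_of_pow_eq_one {ζ : K} {N : ℕ} (hζ0 : ζ ≠ 0) (hζN : ζ ^ N = 1) (z : ℤ) :
    ζ ^ z = ζ ^ (z % (N : ℤ)) := by
  conv_lhs => rw [← Int.mul_ediv_add_emod z (N : ℤ)]
  rw [zpow_add₀ hζ0, zpow_mul, zpow_natCast, hζN, one_zpow, one_mul]

/-- a `q`-periodic function is `q^m`-periodic. -/
theorem periodic_zpow {β : Type*} (f : K → β) {q : K} (hq0 : q ≠ 0)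
    (hper : ∀ u : K, u ≠ 0 → f (q * u) = f u) (m : ℤ) {u : K} (hu : u ≠ 0) :
    f (q ^ m * u) = f u := by
  induction m using Int.induction_on with
  | zero => rw [zpow_zero, one_mul]
  | succ k ih =>
    rw [zpow_add₀ hq0, zpow_one, mul_comm (q ^ (k : ℤ)) q, mul_assoc,
      hper _ (mul_ne_zero (zpow_ne_zero _ hq0) hu), ih]
  | pred k ih =>
    rw [← hper _ (mul_ne_zero (zpow_ne_zero _ hq0) hu), ← mul_assoc, ← zpow_one_add₀ hq0]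
    have : (1 : ℤ) + (-(k : ℤ) - 1) = -(k : ℤ) := by ring
    rw [this, ih]

/-- the index map `k ↦ (i, j)` with `g^k ∈ q^ℤ ζ^i h^j`. -/
def cycIdx (N M : ℕ) (a y e : ℤ) (k : ℕ) : ℕ × ℕ :=
  (((y * k - a * ((e * k) / (M : ℤ))) % (N : ℤ)).toNat, ((e * k) % (M : ℤ)).toNat)

theorem cycIdx_mem {N M : ℕ} (hN : 0 < N) (hM : 0 < M) (a y e : ℤ) (k : ℕ) :
    cycIdx N M a y e k ∈ range N ×ˢ range M := by
  have hN0 : (N : ℤ) ≠ 0 := by exact_mod_cast hN.ne'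
  have hM0 : (M : ℤ) ≠ 0 := by exact_mod_cast hM.ne'
  have hN1 : (0 : ℤ) < N := by exact_mod_cast hN
  have hM1 : (0 : ℤ) < M := by exact_mod_cast hM
  rw [mem_product, mem_range, mem_range]
  exact ⟨(Int.toNat_lt (Int.emod_nonneg _ hN0)).2 (Int.emod_lt_of_pos _ hN1),
    (Int.toNat_lt (Int.emod_nonneg _ hM0)).2 (Int.emod_lt_of_pos _ hM1)⟩

/-- `g^k = q^r · ζ^i h^j` with `(i, j) = cycIdx k`, `r = ⌊ek/M⌋`. -/
theorem pow_eq_cycIdx {q ζ h g : K} {N M : ℕ} (hζN : ζ ^ N = 1) (hN : 0 < N) (hM : 0 < M)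
    (hh0 : h ≠ 0) (a : ℤ) (hq : q = ζ ^ a * h ^ M) (y e : ℤ) (hg : g = ζ ^ y * h ^ e) (k : ℕ) :
    g ^ k = q ^ ((e * k) / (M : ℤ)) *
      (ζ ^ (cycIdx N M a y e k).1 * h ^ (cycIdx N M a y e k).2) := by
  have hζ0 : ζ ≠ 0 := by
    intro h0
    rw [h0, zero_pow hN.ne'] at hζN
    exact zero_ne_one hζN
  have hN0 : (N : ℤ) ≠ 0 := by exact_mod_cast hN.ne'
  have hM0 : (M : ℤ) ≠ 0 := by exact_mod_cast hM.ne'
  set r : ℤ := (e * k) / (M : ℤ) with hr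
  have h1 : ζ ^ (cycIdx N M a y e k).1 = ζ ^ (y * k - a * r) := by
    rw [zpow_emod_of_pow_eq_one hζ0 hζN (y * k - a * r), ← zpow_natCast]
    congr 1
    exact Int.toNat_of_nonneg (Int.emod_nonneg _ hN0)
  have h2 : h ^ (cycIdx N M a y e k).2 = h ^ ((e * k) % (M : ℤ)) := by
    rw [← zpow_natCast]
    congr 1
    exact Int.toNat_of_nonneg (Int.emod_nonneg _ hM0)
  have h3 : h ^ (e * k) = h ^ ((M : ℤ) * r) * h ^ ((e * k) % (M : ℤ)) := by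
    rw [← zpow_add₀ hh0, hr, Int.mul_ediv_add_emod]
  have h4 : q ^ r = ζ ^ (a * r) * h ^ ((M : ℤ) * r) := by
    rw [hq, mul_zpow, ← zpow_mul, ← zpow_natCast h M, ← zpow_mul]
  have h5 : g ^ k = ζ ^ (y * k) * h ^ (e * k) := by
    rw [hg, mul_pow, ← zpow_natCast (ζ ^ y) k, ← zpow_mul, ← zpow_natCast (h ^ e) k, ← zpow_mul]
  rw [h1, h2, h5, h3, h4, zpow_sub₀ hζ0]
  have : ζ ^ (a * r) ≠ 0 := zpow_ne_zero _ hζ0
  field_simp

/-- **reindexing**: if `g = ζ^y h^e` has exact order `N M` modulo `q^ℤ` (`q = ζ^a h^M`,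
`ζ^N = 1`), then the multiples `g^k`, `k < N M`, are the `ζ^i h^j`, `i < N`, `j < M`,
modulo `q^ℤ`. -/
theorem sum_range_cyclic {β : Type*} [AddCommMonoid β] (f : K → β) {q ζ h g : K} {N M : ℕ}
    (hq0 : q ≠ 0) (hζN : ζ ^ N = 1) (hN : 0 < N) (hM : 0 < M) (hh0 : h ≠ 0)
    (a : ℤ) (hq : q = ζ ^ a * h ^ M) (y e : ℤ) (hg : g = ζ ^ y * h ^ e)
    (hper : ∀ u : K, u ≠ 0 → f (q * u) = f u)
    (hord : ∀ k : ℤ, (∃ m : ℤ, g ^ k = q ^ m) → ((N * M : ℕ) : ℤ) ∣ k) :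
    ∑ k ∈ range (N * M), f (g ^ k) = ∑ x ∈ range N ×ˢ range M, f (ζ ^ x.1 * h ^ x.2) := by
  classical
  have hζ0 : ζ ≠ 0 := by
    intro h0
    rw [h0, zero_pow hN.ne'] at hζN
    exact zero_ne_one hζN
  have hg0 : g ≠ 0 := by
    rw [hg]; exact mul_ne_zero (zpow_ne_zero _ hζ0) (zpow_ne_zero _ hh0)
  have hu0 : ∀ x : ℕ × ℕ, ζ ^ x.1 * h ^ x.2 ≠ 0 := fun x =>
    mul_ne_zero (pow_ne_zero _ hζ0) (pow_ne_zero _ hh0)
  have hpow := pow_eq_cycIdx hζN hN hM hh0 a hq y e hg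
  -- injectivity
  have hinj : Set.InjOn (cycIdx N M a y e) (range (N * M) : Set ℕ) := by
    intro k hk k' hk' hkk
    rw [coe_range, Set.mem_Iio] at hk hk'
    have e1 := hpow k
    have e2 := hpow k'
    rw [hkk] at e1
    set u := ζ ^ (cycIdx N M a y e k').1 * h ^ (cycIdx N M a y e k').2 with hu
    have hu' : u ≠ 0 := hu0 _
    have e3 : g ^ ((k : ℤ) - (k' : ℤ)) = q ^ ((e * k) / (M : ℤ) - (e * k') / (M : ℤ)) := by
      rw [zpow_sub₀ hg0, zpow_natCast, zpow_natCast, e1, e2, zpow_sub₀ hq0]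
      have : q ^ ((e * k') / (M : ℤ)) ≠ 0 := zpow_ne_zero _ hq0
      field_simp
    have hdvd := hord _ ⟨_, e3⟩
    have hlt : |(k : ℤ) - (k' : ℤ)| < ((N * M : ℕ) : ℤ) := by
      rw [abs_lt]
      constructor <;> omega
    have := Int.eq_zero_of_abs_lt_dvd hdvd hlt
    omega
  -- the image is everything
  have himg : (range (N * M)).image (cycIdx N M a y e) = range N ×ˢ range M := by
    apply Finset.eq_of_subset_of_card_le
    · intro x hx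
      rw [mem_image] at hx
      obtain ⟨k, _, rfl⟩ := hx
      exact cycIdx_mem hN hM a y e k
    · rw [card_image_of_injOn hinj, card_product, card_range, card_range, card_range]
  rw [← himg, sum_image hinj]
  refine sum_congr rfl fun k _ => ?_
  rw [hpow k, periodic_zpow f hq0 hper _ (hu0 _)]

end reindex

/-! ### the structure of `⟨q, g⟩` -/

section coords

/-- **structure of `⟨q, g⟩`**: if `g` has exact order `n` modulo `q^ℤ`, then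
`⟨q, g⟩ = μ_N × h^ℤ` with `N = gcd(e, n)` where `g^n = q^e`. -/
theorem exists_mixed_coords {q g : K} {n : ℕ} (hq0 : q ≠ 0) (hq1 : ‖q‖ < 1) (hn : 0 < n)
    (hg0 : g ≠ 0) (hord : ∀ k : ℤ, (∃ m : ℤ, g ^ k = q ^ m) ↔ (n : ℤ) ∣ k) :
    ∃ (N M : ℕ) (ζ h : K) (a y e : ℤ), N * M = n ∧ 0 < N ∧ 0 < M ∧ IsPrimitiveRoot ζ N ∧
      h ≠ 0 ∧ ‖h‖ < 1 ∧ q = ζ ^ a * h ^ M ∧ g = ζ ^ y * h ^ e ∧
      ∀ e' : ℤ, g ^ n = q ^ e' → N = Int.gcd e' n := by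
  have hn0 : (n : ℤ) ≠ 0 := by exact_mod_cast hn.ne'
  obtain ⟨e₁, he₁⟩ := (hord n).2 (dvd_refl _)
  rw [zpow_natCast] at he₁
  set d : ℕ := Int.gcd e₁ n with hd
  have hdpos : 0 < d := Int.gcd_pos_of_ne_zero_right _ hn0
  have hd0 : (d : ℤ) ≠ 0 := by exact_mod_cast hdpos.ne'
  have hdn : (d : ℤ) ∣ (n : ℤ) := Int.gcd_dvd_right _ _
  have hde : (d : ℤ) ∣ e₁ := Int.gcd_dvd_left _ _
  have hdn' : d ∣ n := Int.natCast_dvd_natCast.1 hdn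
  set M : ℕ := n / d with hM
  have hMn : d * M = n := Nat.mul_div_cancel' hdn'
  have hMpos : 0 < M := Nat.div_pos (Nat.le_of_dvd hn hdn') hdpos
  set e₀ : ℤ := e₁ / (d : ℤ) with he₀
  have he₀d : (d : ℤ) * e₀ = e₁ := Int.mul_ediv_cancel' hde
  have hMd : (d : ℤ) * (M : ℤ) = (n : ℤ) := by exact_mod_cast hMn
  have hcop : Int.gcd e₀ (M : ℤ) = 1 := by
    have h := Int.gcd_div_gcd_div_gcd (i := e₁) (j := (n : ℤ)) hdpos
    rw [← hd] at h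
    have : (n : ℤ) / (d : ℤ) = (M : ℤ) := by rw [hM, Int.natCast_div]
    rwa [this] at h
  have hbez := Int.gcd_eq_gcd_ab e₀ (M : ℤ)
  rw [hcop] at hbez
  set x : ℤ := Int.gcdA e₀ (M : ℤ) with hx
  set yy : ℤ := Int.gcdB e₀ (M : ℤ) with hyy
  have hbez' : e₀ * x + (M : ℤ) * yy = 1 := by
    rw [← hbez]; norm_num
  -- the two generators
  set ζ : K := g ^ (M : ℤ) * q ^ (-e₀) with hζdef
  set h : K := g ^ x * q ^ yy with hhdef
  have hζ0 : ζ ≠ 0 := mul_ne_zero (zpow_ne_zero _ hg0) (zpow_ne_zero _ hq0)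
  have hh0 : h ≠ 0 := mul_ne_zero (zpow_ne_zero _ hg0) (zpow_ne_zero _ hq0)
  -- general formula for `ζ^l`
  have hζpow : ∀ l : ℤ, ζ ^ l = g ^ ((M : ℤ) * l) * q ^ (-e₀ * l) := fun l => by
    rw [hζdef, mul_zpow, ← zpow_mul, ← zpow_mul]
  have hζN : ζ ^ d = 1 := by
    rw [← zpow_natCast, hζpow]
    have h1 : (M : ℤ) * (d : ℤ) = (n : ℤ) := by rw [mul_comm]; exact hMd
    have h2 : -e₀ * (d : ℤ) = -e₁ := by rw [← he₀d]; ring
    rw [h1, h2, zpow_natCast, he₁, ← zpow_add₀ hq0, add_neg_cancel, zpow_zero]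
  have hζprim : IsPrimitiveRoot ζ d := by
    rw [IsPrimitiveRoot.iff_def]
    refine ⟨hζN, fun l hl => ?_⟩
    rw [← zpow_natCast, hζpow] at hl
    have h1 : g ^ ((M : ℤ) * l) = q ^ (e₀ * l) := by
      have h2 : q ^ (-e₀ * (l : ℤ)) ≠ 0 := zpow_ne_zero _ hq0
      have h3 : g ^ ((M : ℤ) * l) = (q ^ (-e₀ * (l : ℤ)))⁻¹ := eq_inv_of_mul_eq_one_left hl
      rw [h3, ← zpow_neg]
      congr 1
      ring
    have h4 : (n : ℤ) ∣ (M : ℤ) * l := (hord _).1 ⟨_, h1⟩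
    rw [← hMd, mul_comm (d : ℤ) (M : ℤ)] at h4
    have hM0 : (M : ℤ) ≠ 0 := by exact_mod_cast hMpos.ne'
    have h5 : (d : ℤ) ∣ (l : ℤ) := (mul_dvd_mul_iff_left hM0).1 h4
    exact Int.natCast_dvd_natCast.1 h5
  have hζnorm : ‖ζ‖ = 1 := by
    have h2 : ‖ζ‖ ^ d = 1 := by rw [← norm_pow, hζN, norm_one]
    exact (pow_eq_one_iff_of_nonneg (norm_nonneg _) hdpos.ne').1 h2
  -- `h^M = ζ^x q`
  have hhM : h ^ M = ζ ^ x * q := by
    rw [hζpow, hhdef, mul_pow, ← zpow_natCast (g ^ x) M, ← zpow_mul,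
      ← zpow_natCast (q ^ yy) M, ← zpow_mul, mul_assoc]
    congr 1
    · congr 1; ring
    · rw [← zpow_add_one₀ hq0]
      congr 1
      linear_combination hbez'
  have hqeq : q = ζ ^ (-x) * h ^ M := by
    rw [hhM, ← mul_assoc, ← zpow_add₀ hζ0, neg_add_cancel, zpow_zero, one_mul]
  have hh1 : ‖h‖ < 1 := by
    by_contra hcon
    rw [not_lt] at hcon
    have h1 : 1 ≤ ‖h‖ ^ M := one_le_pow₀ hcon
    have h2 : ‖h‖ ^ M = ‖q‖ := by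
      rw [← norm_pow, hhM, norm_mul, norm_zpow, hζnorm, one_zpow, one_mul]
    rw [h2] at h1
    exact absurd hq1 (not_lt.2 h1)
  -- `g = ζ^yy h^e₀`
  have hgeq : g = ζ ^ yy * h ^ e₀ := by
    rw [hζpow, hhdef, mul_zpow, ← zpow_mul, ← zpow_mul]
    have h1 : g ^ ((M : ℤ) * yy) * q ^ (-e₀ * yy) * (g ^ (x * e₀) * q ^ (yy * e₀))
        = g ^ ((M : ℤ) * yy + x * e₀) * q ^ (-e₀ * yy + yy * e₀) := by
      rw [zpow_add₀ hg0, zpow_add₀ hq0]; ring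
    rw [h1]
    have h2 : (M : ℤ) * yy + x * e₀ = 1 := by linear_combination hbez'
    have h3 : -e₀ * yy + yy * e₀ = 0 := by ring
    rw [h2, h3, zpow_one, zpow_zero, mul_one]
  refine ⟨d, M, ζ, h, -x, yy, e₀, hMn, hdpos, hMpos, hζprim, hh0, hh1, hqeq, hgeq, ?_⟩
  intro e' he'
  have hqn0 : (0 : ℝ) < ‖q‖ := norm_pos_iff.2 hq0
  have h1 : ‖q‖ ^ e' = ‖q‖ ^ e₁ := by
    rw [← norm_zpow, ← norm_zpow, ← he', ← he₁]
  have h2 : e' = e₁ := zpow_right_injective₀ hqn0 hq1.ne h1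
  rw [h2]

end coords

/-! ### Vélu for a cyclic subgroup given by a generator -/

section velu

/-- the reindexing of `sum_range_cyclic` without the term `k = 0`. -/
theorem sum_Ico_cyclic {β : Type*} [AddCommGroup β] (f : K → β) {q ζ h g : K} {N M : ℕ}
    (hq0 : q ≠ 0) (hζN : ζ ^ N = 1) (hN : 0 < N) (hM : 0 < M) (hh0 : h ≠ 0)
    (a : ℤ) (hq : q = ζ ^ a * h ^ M) (y e : ℤ) (hg : g = ζ ^ y * h ^ e)
    (hper : ∀ u : K, u ≠ 0 → f (q * u) = f u)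
    (hord : ∀ k : ℤ, (∃ m : ℤ, g ^ k = q ^ m) → ((N * M : ℕ) : ℤ) ∣ k) :
    ∑ k ∈ Ico 1 (N * M), f (g ^ k)
      = ∑ x ∈ (range N ×ˢ range M).erase (0, 0), f (ζ ^ x.1 * h ^ x.2) := by
  have h1 := sum_range_cyclic f hq0 hζN hN hM hh0 a hq y e hg hper hord
  have hmem : ((0 : ℕ), (0 : ℕ)) ∈ range N ×ˢ range M := by
    rw [mem_product]; exact ⟨mem_range.2 hN, mem_range.2 hM⟩
  rw [Finset.sum_erase_eq_sub hmem, ← h1, range_eq_Ico,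
    sum_eq_sum_Ico_succ_bot (Nat.mul_pos hN hM)]
  simp only [pow_zero, mul_one, zero_add]
  abel

variable [IsUltrametricDist K] [CompleteSpace K] [CharZero K]

/-- **Vélu for the cyclic subgroup generated by `P(g)`**, `g` of exact order `n` modulo `q^ℤ`:
`c₄' = N⁴ E₄(s)`, `c₆' = -N⁶ E₆(s)` with `N = gcd(e, n)` (`g^n = q^e`), `N M = n`,
`s^M = q^N`. -/
theorem velu_cyclic {q g : K} {n : ℕ} (hq0 : q ≠ 0) (hq1 : ‖q‖ < 1) (hn : 0 < n) (hg0 : g ≠ 0)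
    (hord : ∀ k : ℤ, (∃ m : ℤ, g ^ k = q ^ m) ↔ (n : ℤ) ∣ k) (h2 : I2 q) (h4 : I4 q) :
    ∃ (N M : ℕ) (s : K), N * M = n ∧ 0 < N ∧ 0 < M ∧ s ≠ 0 ∧ ‖s‖ < 1 ∧ s ^ M = q ^ N ∧
      (∀ e' : ℤ, g ^ n = q ^ e' → N = Int.gcd e' n) ∧
      veluC4F (tateCurve q) (Ico 1 n) (fun k => X q (g ^ k))
        = (N : K) ^ 4 * (1 + 240 * sK 3 s) ∧
      veluC6F (tateCurve q) (Ico 1 n) (fun k => X q (g ^ k))
        = -((N : K) ^ 6 * (1 - 504 * sK 5 s)) := by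
  obtain ⟨N, M, ζ, h, a, y, e, hNM, hN, hM, hζ, hh0, hh1, hq, hg, hgcd⟩ :=
    exists_mixed_coords hq0 hq1 hn hg0 hord
  have hζN : ζ ^ N = 1 := hζ.pow_eq_one
  have hζ0 : ζ ≠ 0 := hζ.ne_zero hN.ne'
  refine ⟨N, M, h ^ N, hNM, hN, hM, pow_ne_zero N hh0, ?_, ?_, hgcd, ?_⟩
  · rw [norm_pow]; exact pow_lt_one₀ (norm_nonneg _) hh1 hN.ne'
  · have hhM : h ^ M = ζ ^ (-a) * q := by
      rw [hq, ← mul_assoc, ← zpow_add₀ hζ0, neg_add_cancel, zpow_zero, one_mul]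
    rw [← pow_mul, mul_comm N M, pow_mul, hhM, mul_pow, ← zpow_natCast (ζ ^ (-a)) N,
      ← zpow_mul, mul_comm (-a) (N : ℤ), zpow_mul, zpow_natCast, hζN, one_zpow, one_mul]
  · have hord' : ∀ k : ℤ, (∃ m : ℤ, g ^ k = q ^ m) → ((N * M : ℕ) : ℤ) ∣ k := fun k hk => by
      rw [hNM]; exact (hord k).1 hk
    have hperX : ∀ u : K, u ≠ 0 → X q (q * u) = X q u := fun u _ => by
      have := X_zpow_mul hq0 1 u
      rwa [zpow_one] at this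
    have hm := velu_mixed hq0 hq1 hζ hN hM hh0 hh1 a hq h2 h4
    unfold veluC4F veluC6F at hm ⊢
    subst hNM
    rw [sum_Ico_cyclic (fun u => veluT (tateCurve q) (X q u)) hq0 hζN hN hM hh0 a hq y e hg
        (fun u hu => by simp only [hperX u hu]) hord',
      sum_Ico_cyclic (fun u => (tateCurve q).b₂ * veluT (tateCurve q) (X q u)
        + 12 * veluW (tateCurve q) (X q u)) hq0 hζN hN hM hh0 a hq y e hg
        (fun u hu => by simp only [hperX u hu]) hord']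
    exact hm

end velu

/-! ### the coordinates [MIX] of the S12 design: `g = ζ t^e`, `t^p = q`, `ζ` of order `p^(k+1)` -/

section mix

/-- the exact order of `g = ζ t^e` (`t^p = q`, `ζ` a primitive `p^(k+1)`-th root of unity)
modulo `q^ℤ` is `p^(k+1)`. -/
theorem exact_order_mix {q t ζ : K} {p k : ℕ} (hp : p.Prime) (hq0 : q ≠ 0) (hq1 : ‖q‖ < 1)
    (ht : t ^ p = q) (hζ : IsPrimitiveRoot ζ (p ^ (k + 1))) (e : ℕ) (z : ℤ) :
    (∃ m : ℤ, (ζ * t ^ e) ^ z = q ^ m) ↔ ((p ^ (k + 1) : ℕ) : ℤ) ∣ z := by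
  have hpk : 0 < p ^ (k + 1) := pow_pos hp.pos _
  have ht0 : t ≠ 0 := by
    intro h
    rw [h, zero_pow hp.pos.ne'] at ht
    exact hq0 ht.symm
  have hζ1 : ‖ζ‖ = 1 := by
    have h2 : ‖ζ‖ ^ (p ^ (k + 1)) = 1 := by rw [← norm_pow, hζ.pow_eq_one, norm_one]
    exact (pow_eq_one_iff_of_nonneg (norm_nonneg _) hpk.ne').1 h2
  have htn0 : (0 : ℝ) < ‖t‖ := norm_pos_iff.2 ht0
  have htn1 : ‖t‖ < 1 := by
    by_contra hcon
    rw [not_lt] at hcon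
    have h1 : 1 ≤ ‖t‖ ^ p := one_le_pow₀ hcon
    rw [← norm_pow, ht] at h1
    exact absurd hq1 (not_lt.2 h1)
  have hgz : ∀ z : ℤ, (ζ * t ^ e) ^ z = ζ ^ z * t ^ ((e : ℤ) * z) := fun z => by
    rw [mul_zpow, ← zpow_natCast t e, ← zpow_mul]
  have hqm : ∀ m : ℤ, q ^ m = t ^ ((p : ℤ) * m) := fun m => by
    rw [← ht, ← zpow_natCast t p, ← zpow_mul]
  constructor
  · rintro ⟨m, hm⟩
    rw [hgz, hqm] at hm
    have h1 : ‖t‖ ^ ((e : ℤ) * z) = ‖t‖ ^ ((p : ℤ) * m) := by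
      have := congrArg norm hm
      rwa [norm_mul, norm_zpow, norm_zpow, norm_zpow, hζ1, one_zpow, one_mul] at this
    have h2 : (e : ℤ) * z = (p : ℤ) * m := zpow_right_injective₀ htn0 htn1.ne h1
    rw [h2] at hm
    have h3 : ζ ^ z = 1 := by
      have h4 : t ^ ((p : ℤ) * m) ≠ 0 := zpow_ne_zero _ ht0
      exact mul_right_cancel₀ h4 (by rw [hm, one_mul])
    exact (hζ.zpow_eq_one_iff_dvd z).1 h3
  · rintro ⟨z', rfl⟩
    refine ⟨(e : ℤ) * ((p ^ k : ℕ) : ℤ) * z', ?_⟩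
    rw [hgz, hqm, (hζ.zpow_eq_one_iff_dvd _).2 (dvd_mul_right _ _), one_mul]
    congr 1
    push_cast
    ring

variable [IsUltrametricDist K] [CompleteSpace K] [CharZero K]

/-- **Vélu in the coordinates [MIX]**: for `g = ζ t^e`, `t^p = q`, `p ∤ e`, `ζ` a primitive
`p^(k+1)`-th root of unity, the quotient of `E_q` by `⟨P(g)⟩` (cyclic of order `p^(k+1)`,
containing `P(μ_{p^k})`) has `c₄' = p^{4k} E₄(s)`, `c₆' = -p^{6k} E₆(s)` with `s^p = q^{p^k}`. -/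
theorem velu_mix {q t ζ : K} {p k : ℕ} (hp : p.Prime) (hq0 : q ≠ 0) (hq1 : ‖q‖ < 1)
    (ht : t ^ p = q) (hζ : IsPrimitiveRoot ζ (p ^ (k + 1))) {e : ℕ} (he : ¬ p ∣ e)
    (h2 : I2 q) (h4 : I4 q) :
    ∃ s : K, s ≠ 0 ∧ ‖s‖ < 1 ∧ s ^ p = q ^ (p ^ k) ∧
      veluC4F (tateCurve q) (Ico 1 (p ^ (k + 1))) (fun i => X q ((ζ * t ^ e) ^ i))
        = ((p ^ k : ℕ) : K) ^ 4 * (1 + 240 * sK 3 s) ∧
      veluC6F (tateCurve q) (Ico 1 (p ^ (k + 1))) (fun i => X q ((ζ * t ^ e) ^ i))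
        = -(((p ^ k : ℕ) : K) ^ 6 * (1 - 504 * sK 5 s)) := by
  have hpk : 0 < p ^ (k + 1) := pow_pos hp.pos _
  have ht0 : t ≠ 0 := by
    intro h
    rw [h, zero_pow hp.pos.ne'] at ht
    exact hq0 ht.symm
  have hg0 : ζ * t ^ e ≠ 0 := mul_ne_zero (hζ.ne_zero hpk.ne') (pow_ne_zero _ ht0)
  obtain ⟨N, M, s, hNM, hN, hM, hs0, hs1, hsM, hgcd, h4', h6'⟩ :=
    velu_cyclic hq0 hq1 hpk hg0 (exact_order_mix hp hq0 hq1 ht hζ e) h2 h4
  -- `g^n = q^(e p^k)`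
  have hgn : (ζ * t ^ e) ^ (p ^ (k + 1)) = q ^ (((e * p ^ k : ℕ) : ℤ)) := by
    rw [mul_pow, hζ.pow_eq_one, one_mul, zpow_natCast, ← ht, ← pow_mul, ← pow_mul]
    congr 1
    ring
  have hNval : N = p ^ k := by
    rw [hgcd _ hgn]
    have h1 : ((e * p ^ k : ℕ) : ℤ) = (e : ℤ) * ((p ^ k : ℕ) : ℤ) := by push_cast; ring
    have h2' : ((p ^ (k + 1) : ℕ) : ℤ) = (p : ℤ) * ((p ^ k : ℕ) : ℤ) := by push_cast; ring
    rw [h1, h2', Int.gcd_mul_right, Int.natAbs_natCast, Int.gcd_natCast_natCast]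
    have hcop : Nat.gcd e p = 1 := by
      rw [Nat.gcd_comm]; exact (Nat.Prime.coprime_iff_not_dvd hp).2 he
    rw [hcop, one_mul]
  have hMval : M = p := by
    have h1 : p ^ k * M = p ^ k * p := by
      calc p ^ k * M = N * M := by rw [hNval]
        _ = p ^ (k + 1) := hNM
        _ = p ^ k * p := pow_succ p k
    exact Nat.eq_of_mul_eq_mul_left (pow_pos hp.pos k) h1
  subst hNval
  subst hMval
  exact ⟨s, hs0, hs1, hsM, h4', h6'⟩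

end mix

end Fermat.Agent.GZ.Tate.T5
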