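/-
GATE-Z (S15) / [MOD-beta] (T5), EVAL side of (I2)(I4) (helper37, second seat of helper72's
GZ-MODB-T5-I24): the formal `q`-expansions of `S3 = D²X`, `S5 = D⁴X`,

  `S3f u u' w = u(1+4u+u²)w⁴ + ∑_{d ≥ 1} (∑_{m ∣ d} m³ (u^m + u'^m)) q^d`,
  `S5f u u' w = u(1+26u+66u²+26u³+u⁴)w⁶ + ∑_{d ≥ 1} (∑_{m ∣ d} m⁵ (u^m + u'^m)) q^d`

over an arbitrary commutative ring (style of helper71's `Weq/Formal`: `Xf`, `Yf`), with naturality,
and their **evaluation** on the annulus `‖q‖ < ‖u‖ < ‖q‖⁻¹` (helper64's `T2/Lambert` toolkit):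

  `hasSum_S3f : HasSum (fun d => coeff d (S3f u u⁻¹ (1 - u)⁻¹) * q ^ d) (S3 q u)`, same for `S5f`.
-/
import Mathlib
import Fermat.Agent.GZ.Tate.T2.Lambert
import Fermat.Agent.GZ.Tate.T5.Series

set_option autoImplicit false

noncomputable section

namespace Fermat.Agent.GZ.Tate.T5

open PowerSeries Fermat.Agent.GZ.Tate Fermat.Agent.GZ.Tate.T2.Lambert
open Fermat.Agent.GZ.Tate.T5.RootSums

/-! ### the formal series -/

section formal

variable {R : Type*} [CommRing R]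

/-- `∑_{m ∣ d} m^k (u^m + u'^m)`: the coefficient of `q^d` of `∑_{n ≠ 0} F_k(q^n u)` (`k` odd). -/
def sCoeff (k : ℕ) (u u' : R) (d : ℕ) : R := ∑ m ∈ d.divisors, (m : R) ^ k * (u ^ m + u' ^ m)

@[simp] theorem sCoeff_zero (k : ℕ) (u u' : R) : sCoeff k u u' 0 = 0 := by simp [sCoeff]

/-- the formal `q`-expansion of `S3 = D²X` (`u' = u⁻¹`, `w = (1-u)⁻¹`). -/
def S3f (u u' w : R) : R⟦X⟧ := C (u * (1 + 4 * u + u ^ 2) * w ^ 4) + mk (sCoeff 3 u u')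

/-- the formal `q`-expansion of `S5 = D⁴X`. -/
def S5f (u u' w : R) : R⟦X⟧ :=
  C (u * (1 + 26 * u + 66 * u ^ 2 + 26 * u ^ 3 + u ^ 4) * w ^ 6) + mk (sCoeff 5 u u')

theorem coeff_S3f (u u' w : R) (d : ℕ) :
    coeff d (S3f u u' w) = if d = 0 then u * (1 + 4 * u + u ^ 2) * w ^ 4 else sCoeff 3 u u' d := by
  rw [S3f, map_add, coeff_C, coeff_mk]
  split_ifs with h
  · subst h; simp
  · simp

theorem coeff_S5f (u u' w : R) (d : ℕ) :
    coeff d (S5f u u' w) =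
      if d = 0 then u * (1 + 26 * u + 66 * u ^ 2 + 26 * u ^ 3 + u ^ 4) * w ^ 6
      else sCoeff 5 u u' d := by
  rw [S5f, map_add, coeff_C, coeff_mk]
  split_ifs with h
  · subst h; simp
  · simp

variable {S : Type*} [CommRing S] (φ : R →+* S)

theorem map_sCoeff (k : ℕ) (u u' : R) (d : ℕ) :
    φ (sCoeff k u u' d) = sCoeff k (φ u) (φ u') d := by
  simp [sCoeff, map_sum]

theorem map_S3f (u u' w : R) : map φ (S3f u u' w) = S3f (φ u) (φ u') (φ w) := by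
  ext d
  rw [coeff_map, coeff_S3f, coeff_S3f]
  split_ifs
  · simp [map_ofNat]
  · exact map_sCoeff φ 3 u u' d

theorem map_S5f (u u' w : R) : map φ (S5f u u' w) = S5f (φ u) (φ u') (φ w) := by
  ext d
  rw [coeff_map, coeff_S5f, coeff_S5f]
  split_ifs
  · simp [map_ofNat]
  · exact map_sCoeff φ 5 u u' d

end formal

/-! ### evaluation -/

variable {K : Type*} [NormedField K] [IsUltrametricDist K] [CompleteSpace K] [CharZero K]

/-- `m ↦ m^k u^m`. -/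
def gPow (k : ℕ) (u : K) (m : ℕ) : K := (m : K) ^ k * u ^ m

omit [IsUltrametricDist K] [CompleteSpace K] [CharZero K] in
theorem ns_gPow (k : ℕ) {q u : K} (hq1 : ‖q‖ < 1) (hu : ‖u‖ * ‖q‖ < 1) : NS (gPow k u) q := by
  refine NS.of_le k (norm_nonneg u) hq1 hu fun m => ?_
  rw [gPow, norm_mul, norm_pow, norm_pow]
  exact mul_le_mul_of_nonneg_right
    (pow_le_pow_left₀ (norm_nonneg _) (norm_natCast_le' _) k) (pow_nonneg (norm_nonneg _) _)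

theorem row_gPow {k : ℕ} (hk : 1 ≤ k) {q u : K} (hq1 : ‖q‖ < 1) (hu : ‖u‖ * ‖q‖ < 1) (n : ℕ) :
    HasSum (fun m => lam (gPow k u) q (n, m)) (Fn k (q ^ (n + 1) * u)) := by
  have h := hasSum_Fn k (norm_pow_succ_mul_lt hq1 hu n)
  have h2 := (hasSum_nat_add_iff' (f := fun m : ℕ => (m : K) ^ k * (q ^ (n + 1) * u) ^ m) 1).2 h
  simp only [Finset.range_one, Finset.sum_singleton, Nat.cast_zero,
    zero_pow (Nat.one_le_iff_ne_zero.1 hk), zero_mul, sub_zero] at h2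
  refine h2.congr_fun fun m => ?_
  show ((m + 1 : ℕ) : K) ^ k * u ^ (m + 1) * q ^ ((n + 1) * (m + 1)) = _
  rw [mul_pow, ← pow_mul]
  push_cast
  ring

/-- the `ℤ`-indexed sum of a `Good` function whose rows are `F_k`. -/
theorem hasSum_int_good {F : K → K} (hF : Good F) {k : ℕ} (hk : 1 ≤ k) (hFn : ∀ w, F w = Fn k w)
    {q u : K} (hq0 : q ≠ 0) (hq1 : ‖q‖ < 1) (hu1 : ‖q‖ < ‖u‖) (hu2 : ‖u‖ * ‖q‖ < 1) :
    HasSum (fun n : ℤ => F (q ^ n * u))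
      (F u + ∑' c, lam (gPow k u) q c + ∑' c, lam (gPow k u⁻¹) q c) := by
  have hu0 : u ≠ 0 := by
    intro h
    rw [h, norm_zero] at hu1
    exact absurd hu1 (not_lt.2 (norm_nonneg q))
  have hu' := norm_inv_mul_lt hu1
  refine hasSum_int_of_rows (T := F) (ns_gPow k hq1 hu2) (ns_gPow k hq1 hu')
    (fun n => by rw [hFn]; exact row_gPow hk hq1 hu2 n) fun n => ?_
  rw [hF.inv _ (mul_ne_zero (pow_ne_zero _ hq0) (inv_ne_zero hu0)), hFn]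
  exact row_gPow hk hq1 hu' n

/-- the divisor-sum coefficient function of `S_k`. -/
def GS (k : ℕ) (u u' : K) (m : ℕ) : K := gPow k u m + gPow k u' m

omit [IsUltrametricDist K] [CompleteSpace K] [CharZero K] in
theorem ns_GS (k : ℕ) {q u u' : K} (hq1 : ‖q‖ < 1) (hu : ‖u‖ * ‖q‖ < 1)
    (hu' : ‖u'‖ * ‖q‖ < 1) : NS (GS k u u') q :=
  (ns_gPow k hq1 hu).add (ns_gPow k hq1 hu')

omit [IsUltrametricDist K] [CharZero K] in
theorem tsum_GS (k : ℕ) {q u u' : K} (hq1 : ‖q‖ < 1) (hu : ‖u‖ * ‖q‖ < 1)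
    (hu' : ‖u'‖ * ‖q‖ < 1) :
    ∑' c, lam (GS k u u') q c = ∑' c, lam (gPow k u) q c + ∑' c, lam (gPow k u') q c :=
  (ns_gPow k hq1 hu).tsum_add (ns_gPow k hq1 hu')

omit [IsUltrametricDist K] [CompleteSpace K] [CharZero K] in
theorem sCoeff_eq_sum (k : ℕ) (u u' : K) (d : ℕ) :
    sCoeff k u u' d = ∑ m ∈ d.divisors, GS k u u' m := by
  unfold sCoeff
  refine Finset.sum_congr rfl fun m _ => ?_
  simp only [GS, gPow]
  ring

omit [IsUltrametricDist K] [CompleteSpace K] [CharZero K] in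
theorem coeff_zero_S3f (u : K) : coeff 0 (S3f u u⁻¹ (1 - u)⁻¹) = F3 u := by
  rw [coeff_S3f, if_pos rfl, F3, div_eq_mul_inv, inv_pow]

omit [IsUltrametricDist K] [CompleteSpace K] [CharZero K] in
theorem coeff_zero_S5f (u : K) : coeff 0 (S5f u u⁻¹ (1 - u)⁻¹) = F5 u := by
  rw [coeff_S5f, if_pos rfl, F5, div_eq_mul_inv, inv_pow]

/-- **evaluation of the formal `q`-expansion of `S3 = D²X`** on `‖q‖ < ‖u‖ < ‖q‖⁻¹`. -/
theorem hasSum_S3f {q u : K} (hq0 : q ≠ 0) (hq1 : ‖q‖ < 1) (hu1 : ‖q‖ < ‖u‖)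
    (hu2 : ‖u‖ * ‖q‖ < 1) :
    HasSum (fun d => coeff d (S3f u u⁻¹ (1 - u)⁻¹) * q ^ d) (S3 q u) := by
  have hu' := norm_inv_mul_lt hu1
  have h := (ns_GS 3 hq1 hu2 hu').hasSum_coeff (F3 u)
    (fun d => coeff d (S3f u u⁻¹ (1 - u)⁻¹)) (coeff_zero_S3f u) (fun d hd => by
      rw [coeff_S3f, if_neg hd, sCoeff_eq_sum])
  have e : S3 q u = F3 u + ∑' x, lam (GS 3 u u⁻¹) q x := by
    rw [S3, (hasSum_int_good good_F3 (by norm_num) F3_eq_Fn hq0 hq1 hu1 hu2).tsum_eq,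
      tsum_GS 3 hq1 hu2 hu']
    ring
  rw [e]
  exact h

omit [IsUltrametricDist K] [CharZero K] in
theorem summable_norm_S3f {q u : K} (hq1 : ‖q‖ < 1) (hu1 : ‖q‖ < ‖u‖) (hu2 : ‖u‖ * ‖q‖ < 1) :
    Summable fun d => ‖coeff d (S3f u u⁻¹ (1 - u)⁻¹)‖ * ‖q‖ ^ d :=
  (ns_GS 3 hq1 hu2 (norm_inv_mul_lt hu1)).summable_norm_coeff
    (fun d => coeff d (S3f u u⁻¹ (1 - u)⁻¹)) (fun d hd => by
      rw [coeff_S3f, if_neg hd, sCoeff_eq_sum])

/-- **evaluation of the formal `q`-expansion of `S5 = D⁴X`** on `‖q‖ < ‖u‖ < ‖q‖⁻¹`. -/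
theorem hasSum_S5f {q u : K} (hq0 : q ≠ 0) (hq1 : ‖q‖ < 1) (hu1 : ‖q‖ < ‖u‖)
    (hu2 : ‖u‖ * ‖q‖ < 1) :
    HasSum (fun d => coeff d (S5f u u⁻¹ (1 - u)⁻¹) * q ^ d) (S5 q u) := by
  have hu' := norm_inv_mul_lt hu1
  have h := (ns_GS 5 hq1 hu2 hu').hasSum_coeff (F5 u)
    (fun d => coeff d (S5f u u⁻¹ (1 - u)⁻¹)) (coeff_zero_S5f u) (fun d hd => by
      rw [coeff_S5f, if_neg hd, sCoeff_eq_sum])
  have e : S5 q u = F5 u + ∑' x, lam (GS 5 u u⁻¹) q x := by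
    rw [S5, (hasSum_int_good good_F5 (by norm_num) F5_eq_Fn hq0 hq1 hu1 hu2).tsum_eq,
      tsum_GS 5 hq1 hu2 hu']
    ring
  rw [e]
  exact h

omit [IsUltrametricDist K] [CharZero K] in
theorem summable_norm_S5f {q u : K} (hq1 : ‖q‖ < 1) (hu1 : ‖q‖ < ‖u‖) (hu2 : ‖u‖ * ‖q‖ < 1) :
    Summable fun d => ‖coeff d (S5f u u⁻¹ (1 - u)⁻¹)‖ * ‖q‖ ^ d :=
  (ns_GS 5 hq1 hu2 (norm_inv_mul_lt hu1)).summable_norm_coeff
    (fun d => coeff d (S5f u u⁻¹ (1 - u)⁻¹)) (fun d hd => by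
      rw [coeff_S5f, if_neg hd, sCoeff_eq_sum])

/-! ### `q`-periodicity of `S3`, `S5` -/

omit [IsUltrametricDist K] [CompleteSpace K] [CharZero K] in
theorem Good.tsum_int_mul_left {F : K → K} (q u : K) (hq0 : q ≠ 0) :
    ∑' n : ℤ, F (q ^ n * (q * u)) = ∑' n : ℤ, F (q ^ n * u) := by
  have h : ∀ n : ℤ, F (q ^ n * (q * u)) = F (q ^ (n + 1) * u) := fun n => by
    rw [zpow_add₀ hq0, zpow_one, mul_assoc]
  rw [tsum_congr h]
  exact (Equiv.addRight (1 : ℤ)).tsum_eq (fun n : ℤ => F (q ^ n * u))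

omit [IsUltrametricDist K] [CompleteSpace K] [CharZero K] in
theorem S3_mul_left (q u : K) (hq0 : q ≠ 0) : S3 q (q * u) = S3 q u :=
  Good.tsum_int_mul_left q u hq0

omit [IsUltrametricDist K] [CompleteSpace K] [CharZero K] in
theorem S5_mul_left (q u : K) (hq0 : q ≠ 0) : S5 q (q * u) = S5 q u :=
  Good.tsum_int_mul_left q u hq0

omit [IsUltrametricDist K] [CompleteSpace K] [CharZero K] in
theorem S3_zpow_mul (q u : K) (hq0 : q ≠ 0) (n : ℤ) : S3 q (q ^ n * u) = S3 q u := by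
  have h : ∀ m : ℤ, F3 (q ^ m * (q ^ n * u)) = F3 (q ^ (m + n) * u) := fun m => by
    rw [zpow_add₀ hq0, mul_assoc]
  simp only [S3]
  rw [tsum_congr h]
  exact (Equiv.addRight n).tsum_eq (fun m : ℤ => F3 (q ^ m * u))

omit [IsUltrametricDist K] [CompleteSpace K] [CharZero K] in
theorem S5_zpow_mul (q u : K) (hq0 : q ≠ 0) (n : ℤ) : S5 q (q ^ n * u) = S5 q u := by
  have h : ∀ m : ℤ, F5 (q ^ m * (q ^ n * u)) = F5 (q ^ (m + n) * u) := fun m => by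
    rw [zpow_add₀ hq0, mul_assoc]
  simp only [S5]
  rw [tsum_congr h]
  exact (Equiv.addRight n).tsum_eq (fun m : ℤ => F5 (q ^ m * u))

end Fermat.Agent.GZ.Tate.T5
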