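/-
GATE-Z (S15) / [MOD-beta] (T5), the EVAL plug of (I2)(I4) (helper37; second seat of helper72's
GZ-MODB-T5-I24): the FORMAL identities

  `I2F : S3f = 6 Xf² + Xf + 2 a4f`,
  `I4F : S5f = 120 Xf³ + 30 Xf² + (72 a4f + 1) Xf + 48 a6f + 2 a4f`

(over every commutative ring, at every `(u, u', w)` with `u u' = 1`, `(1 - u) w = 1`; `Xf a4f a6f` of
helper71's `Weq/Formal`, `S3f S5f` of `T5/Lambert35`) imply the binders `I2 q`, `I4 q` of `T5/Velu`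
over every complete ultrametric normed field of characteristic zero:

  `i2_of_formal : I2F → I2 q`,   `i4_of_formal : I4F → I4 q`.

(Evaluation on the annulus by helper64's `T2/Lambert2` + helper71's `Weq/Eval`, then the `q`-shift.)
-/
import Mathlib
import Fermat.Agent.GZ.Tate.T2.Lambert2
import Fermat.Agent.GZ.Tate.T5.Lambert35
import Fermat.Agent.GZ.Tate.T5.Velu
import Fermat.Agent.GZ.Tate.Conv
import Fermat.Agent.GZ.Tate.T1.Unit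

set_option autoImplicit false

noncomputable section

namespace Fermat.Agent.GZ.Tate.T5

open PowerSeries Fermat.Agent.GZ.Tate Fermat.Agent.GZ.Tate.Weq

universe v

/-- the formal (I2): `D²X = 6X² + X + 2a₄` for the formal `q`-expansions. -/
def I2F : Prop :=
  ∀ (R : Type v) [CommRing R] (u u' w : R), u * u' = 1 → (1 - u) * w = 1 →
    S3f u u' w = 6 * Xf u u' w ^ 2 + Xf u u' w + 2 * map (Int.castRingHom R) a4f

/-- the formal (I4): `D⁴X = 120X³ + 30X² + (72a₄ + 1)X + 48a₆ + 2a₄` for the formal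
`q`-expansions. -/
def I4F : Prop :=
  ∀ (R : Type v) [CommRing R] (u u' w : R), u * u' = 1 → (1 - u) * w = 1 →
    S5f u u' w = 120 * Xf u u' w ^ 3 + 30 * Xf u u' w ^ 2 +
      (72 * map (Int.castRingHom R) a4f + 1) * Xf u u' w + 48 * map (Int.castRingHom R) a6f +
      2 * map (Int.castRingHom R) a4f

section numerals

variable {𝕜 : Type*} [NormedField 𝕜]

theorem absConv_ofNat (n : ℕ) [n.AtLeastTwo] (q : 𝕜) : AbsConv (OfNat.ofNat n : 𝕜⟦X⟧) q := by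
  rw [← map_ofNat (C (R := 𝕜)) n]
  exact absConv_C _ q

theorem absConv_one (q : 𝕜) : AbsConv (1 : 𝕜⟦X⟧) q := by
  rw [← map_one (C (R := 𝕜))]
  exact absConv_C _ q

variable [CompleteSpace 𝕜]

theorem evalPS_ofNat (n : ℕ) [n.AtLeastTwo] (q : 𝕜) :
    evalPS (OfNat.ofNat n : 𝕜⟦X⟧) q = OfNat.ofNat n := by
  rw [← map_ofNat (C (R := 𝕜)) n, evalPS_C]

theorem evalPS_one (q : 𝕜) : evalPS (1 : 𝕜⟦X⟧) q = 1 := by
  rw [← map_one (C (R := 𝕜)), evalPS_C]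

end numerals

variable {K : Type v} [NormedField K] [IsUltrametricDist K] [CompleteSpace K] [CharZero K]

omit [IsUltrametricDist K] [CharZero K] in
theorem absConv_S3f {q u : K} (hq1 : ‖q‖ < 1) (hu1 : ‖q‖ < ‖u‖) (hu2 : ‖u‖ * ‖q‖ < 1) :
    AbsConv (S3f u u⁻¹ (1 - u)⁻¹) q :=
  T2.Lambert.absConv_of_summable_norm (summable_norm_S3f hq1 hu1 hu2)

omit [IsUltrametricDist K] [CharZero K] in
theorem absConv_S5f {q u : K} (hq1 : ‖q‖ < 1) (hu1 : ‖q‖ < ‖u‖) (hu2 : ‖u‖ * ‖q‖ < 1) :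
    AbsConv (S5f u u⁻¹ (1 - u)⁻¹) q :=
  T2.Lambert.absConv_of_summable_norm (summable_norm_S5f hq1 hu1 hu2)

theorem evalPS_S3f {q u : K} (hq0 : q ≠ 0) (hq1 : ‖q‖ < 1) (hu1 : ‖q‖ < ‖u‖)
    (hu2 : ‖u‖ * ‖q‖ < 1) : evalPS (S3f u u⁻¹ (1 - u)⁻¹) q = S3 q u :=
  (hasSum_S3f hq0 hq1 hu1 hu2).tsum_eq

theorem evalPS_S5f {q u : K} (hq0 : q ≠ 0) (hq1 : ‖q‖ < 1) (hu1 : ‖q‖ < ‖u‖)
    (hu2 : ‖u‖ * ‖q‖ < 1) : evalPS (S5f u u⁻¹ (1 - u)⁻¹) q = S5 q u :=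
  (hasSum_S5f hq0 hq1 hu1 hu2).tsum_eq

/-- (I2) on the annulus from the formal identity at the point `(u, u⁻¹, (1 - u)⁻¹)`. -/
theorem i2_annulus {q u : K} (hq0 : q ≠ 0) (hq1 : ‖q‖ < 1) (hu1 : ‖q‖ < ‖u‖)
    (hu2 : ‖u‖ * ‖q‖ < 1)
    (h : S3f u u⁻¹ (1 - u)⁻¹ = 6 * Xf u u⁻¹ (1 - u)⁻¹ ^ 2 + Xf u u⁻¹ (1 - u)⁻¹ +
      2 * map (Int.castRingHom K) a4f) :
    S3 q u = 6 * X q u ^ 2 + X q u + 2 * a4 q := by
  have hX := T2.Lambert.absConv_Xf hq1 hu1 hu2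
  have h4 := T2.Lambert.absConv_a4f (𝕜 := K) hq1
  have e := congrArg (fun f => evalPS f q) h
  beta_reduce at e
  rw [evalPS_S3f hq0 hq1 hu1 hu2,
    evalPS_add (((absConv_ofNat 6 q).mul (hX.pow 2)).add hX) ((absConv_ofNat 2 q).mul h4),
    evalPS_add ((absConv_ofNat 6 q).mul (hX.pow 2)) hX,
    evalPS_mul (absConv_ofNat 6 q) (hX.pow 2), evalPS_mul (absConv_ofNat 2 q) h4,
    evalPS_pow hX, evalPS_ofNat, evalPS_ofNat, T2.Lambert.evalPS_Xf hq0 hq1 hu1 hu2,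
    T2.Lambert.evalPS_a4f hq1] at e
  exact e

/-- (I4) on the annulus from the formal identity at the point `(u, u⁻¹, (1 - u)⁻¹)`. -/
theorem i4_annulus {q u : K} (hq0 : q ≠ 0) (hq1 : ‖q‖ < 1) (hu1 : ‖q‖ < ‖u‖)
    (hu2 : ‖u‖ * ‖q‖ < 1)
    (h : S5f u u⁻¹ (1 - u)⁻¹ = 120 * Xf u u⁻¹ (1 - u)⁻¹ ^ 3 + 30 * Xf u u⁻¹ (1 - u)⁻¹ ^ 2 +
      (72 * map (Int.castRingHom K) a4f + 1) * Xf u u⁻¹ (1 - u)⁻¹ +
      48 * map (Int.castRingHom K) a6f + 2 * map (Int.castRingHom K) a4f) :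
    S5 q u = 120 * X q u ^ 3 + 30 * X q u ^ 2 + (72 * a4 q + 1) * X q u + 48 * a6 q +
      2 * a4 q := by
  have hX := T2.Lambert.absConv_Xf hq1 hu1 hu2
  have h4 := T2.Lambert.absConv_a4f (𝕜 := K) hq1
  have h6 := T2.Lambert.absConv_a6f (𝕜 := K) hq1
  have c1 := (absConv_ofNat 120 q).mul (hX.pow 3)
  have c2 := (absConv_ofNat 30 q).mul (hX.pow 2)
  have c3a := ((absConv_ofNat 72 q).mul h4).add (absConv_one q)
  have c3 := c3a.mul hX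
  have c4 := (absConv_ofNat 48 q).mul h6
  have c5 := (absConv_ofNat 2 q).mul h4
  have e := congrArg (fun f => evalPS f q) h
  beta_reduce at e
  rw [evalPS_S5f hq0 hq1 hu1 hu2,
    evalPS_add (((c1.add c2).add c3).add c4) c5, evalPS_add ((c1.add c2).add c3) c4,
    evalPS_add (c1.add c2) c3, evalPS_add c1 c2,
    evalPS_mul (absConv_ofNat 120 q) (hX.pow 3), evalPS_mul (absConv_ofNat 30 q) (hX.pow 2),
    evalPS_mul c3a hX, evalPS_add ((absConv_ofNat 72 q).mul h4) (absConv_one q),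
    evalPS_mul (absConv_ofNat 72 q) h4, evalPS_mul (absConv_ofNat 48 q) h6,
    evalPS_mul (absConv_ofNat 2 q) h4, evalPS_pow hX, evalPS_pow hX, evalPS_one,
    evalPS_ofNat, evalPS_ofNat, evalPS_ofNat, evalPS_ofNat, evalPS_ofNat,
    T2.Lambert.evalPS_Xf hq0 hq1 hu1 hu2, T2.Lambert.evalPS_a4f hq1,
    T2.Lambert.evalPS_a6f hq1] at e
  exact e

omit [IsUltrametricDist K] [CompleteSpace K] [CharZero K] in
/-- reduction of an admissible `u` to the annulus `‖q‖ < ‖q^n u‖ ≤ 1`. -/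
theorem exists_annulus {q u : K} (hq0 : q ≠ 0) (hq1 : ‖q‖ < 1) (hu : IsAdm q u) :
    ∃ n : ℤ, ‖q‖ < ‖q ^ n * u‖ ∧ ‖q ^ n * u‖ * ‖q‖ < 1 ∧ q ^ n * u ≠ 0 ∧ q ^ n * u ≠ 1 := by
  obtain ⟨n, hn1, hn2⟩ := exists_zpow_mul_mem_annulus hq0 hq1 hu.1
  refine ⟨n, hn1, ?_, mul_ne_zero (zpow_ne_zero _ hq0) hu.1, hu.2 n⟩
  calc ‖q ^ n * u‖ * ‖q‖ ≤ 1 * ‖q‖ := mul_le_mul_of_nonneg_right hn2 (norm_nonneg q)
    _ = ‖q‖ := one_mul _
    _ < 1 := hq1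

/-- **(I2) from the formal identity.** -/
theorem i2_of_formal (h : I2F.{v}) {q : K} (hq0 : q ≠ 0) (hq1 : ‖q‖ < 1) : I2 q := by
  intro u hu
  obtain ⟨n, hn1, hn2, hn0, hne⟩ := exists_annulus hq0 hq1 hu
  have h1u : (1 : K) - q ^ n * u ≠ 0 := sub_ne_zero.2 (Ne.symm hne)
  have e := i2_annulus hq0 hq1 hn1 hn2
    (h K (q ^ n * u) (q ^ n * u)⁻¹ (1 - q ^ n * u)⁻¹ (mul_inv_cancel₀ hn0) (mul_inv_cancel₀ h1u))
  rwa [S3_zpow_mul q u hq0, X_zpow_mul hq0] at e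

/-- **(I4) from the formal identity.** -/
theorem i4_of_formal (h : I4F.{v}) {q : K} (hq0 : q ≠ 0) (hq1 : ‖q‖ < 1) : I4 q := by
  intro u hu
  obtain ⟨n, hn1, hn2, hn0, hne⟩ := exists_annulus hq0 hq1 hu
  have h1u : (1 : K) - q ^ n * u ≠ 0 := sub_ne_zero.2 (Ne.symm hne)
  have e := i4_annulus hq0 hq1 hn1 hn2
    (h K (q ^ n * u) (q ^ n * u)⁻¹ (1 - q ^ n * u)⁻¹ (mul_inv_cancel₀ hn0) (mul_inv_cancel₀ h1u))
  rwa [S5_zpow_mul q u hq0, X_zpow_mul hq0] at e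

end Fermat.Agent.GZ.Tate.T5
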