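/-
GATE-Z (S15) / [MOD-beta] (T5): **the binder (I2) of `T5/Velu.lean` IS A THEOREM** (helper37), from
helper68's by-product `WeqD.three_mul_X_sq : 3 X² = 3 W + 5 s₃ + s₁` (`W = ∑ₙ xTerm(qⁿu)²`) and the
rational identity `F₃(w) = xTerm w + 6 (xTerm w)²`:

  `i2 : I2 q`, i.e. `∀ u, IsAdm q u → S3 q u = 6 X(u)² + X(u) + 2 a₄`

over every complete ultrametric normed field (no hypothesis on the characteristic), `q ≠ 0`,
`‖q‖ < 1`.  No `ℂ`, no formal series.
-/
import Mathlib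
import Fermat.Agent.GZ.Tate.WeqD.Main
import Fermat.Agent.GZ.Tate.T5.Velu

set_option autoImplicit false

noncomputable section

namespace Fermat.Agent.GZ.Tate.T5

open Fermat.Agent.GZ.Tate

variable {K : Type*} [NormedField K] [IsUltrametricDist K] [CompleteSpace K]

omit [IsUltrametricDist K] [CompleteSpace K] in
/-- `F₃ = φ + 6 φ²` with `φ(w) = w/(1-w)²` (also at `w = 1`, where both sides are `0`). -/
theorem F3_eq_xTerm (w : K) : F3 w = xTerm w + 6 * xTerm w ^ 2 := by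
  unfold F3 xTerm
  by_cases h : w = 1
  · subst h
    simp
  · have h1 : (1 : K) - w ≠ 0 := sub_ne_zero.2 (Ne.symm h)
    field_simp
    ring

/-- `S3 = P + 6 W`. -/
theorem S3_eq_PP_add {q u : K} (hq0 : q ≠ 0) (hq1 : ‖q‖ < 1) (hu : IsAdm q u) :
    S3 q u = WeqD.PP q u + 6 * WeqD.WW q u := by
  have hP := WeqD.hasSum_PP hq0 hq1 hu
  have hW := WeqD.hasSum_WW hq0 hq1 hu
  have hS : HasSum (fun n : ℤ => F3 (q ^ n * u)) (WeqD.PP q u + 6 * WeqD.WW q u) := by
    refine (hP.add (hW.mul_left 6)).congr_fun fun n => ?_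
    rw [F3_eq_xTerm]
    rfl
  rw [S3, hS.tsum_eq]

/-- **(I2) is a theorem**: `D²X = 6X² + X + 2a₄` on the Tate curve. -/
theorem i2 {q : K} (hq0 : q ≠ 0) (hq1 : ‖q‖ < 1) : I2 q := by
  intro u hu
  have h3 := WeqD.three_mul_X_sq hq0 hq1 hu
  rw [S3_eq_PP_add hq0 hq1 hu, a4]
  rw [WeqD.X_eq_PP] at h3 ⊢
  linear_combination (-2 : K) * h3

end Fermat.Agent.GZ.Tate.T5
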