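/-
GATE-Z / CELL-M3 (S12), Tate side (VELU-MIX, helper37), part 3 = BRIDGE: the Vélu invariants of
`E_q / ⟨P(g)⟩` (`T5/MixedCyclic`) BINDER-FREE (helper68's `WeqD.i2`, `WeqD.i4`), in the
vocabulary of helper43's `Velu/Cov` (`Velu.veluC4 W n x`, `Velu.veluC6 W n x`) and helper91's
`T6` (`ev s e4Z`, `ev s e6Z`, `T6.jq s`):

* `t6_scaled`      : `c₄' = λ⁴ E₄(s)`, `c₆'² = λ¹² E₆(s)²` ⟹ `1728 c₄'³/(c₄'³ - c₆'²) = jq s`;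
* `velu_cyclic_ev` : for `g` of exact order `n` modulo `q^ℤ`;
* `velu_mix_ev`    : the coordinates [MIX] `g = ζ t^e`, `t^p = q`, `ζ` of order `p^(k+1)`.
-/
import Mathlib
import Fermat.Agent.GZ.Tate.T5.MixedCyclic
import Fermat.Agent.GZ.Tate.T5.VeluBridge
import Fermat.Agent.GZ.Tate.WeqD.Plug
import Fermat.Agent.GZ.Tate.T6.Inst

set_option autoImplicit false

noncomputable section

open Finset

namespace Fermat.Agent.GZ.Tate.T5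

open Fermat.Agent.GZ.Tate Fermat.Agent.GZ.Tate.T0 Fermat.Agent.S16.L1h67

variable {K : Type*} [NormedField K] [IsUltrametricDist K] [CompleteSpace K]

/-- **the `j`-value from scaled `(c₄', c₆')`**: `c₄' = λ⁴ E₄(s)`, `c₆'² = λ¹² E₆(s)²` ⟹
`1728 c₄'³/(c₄'³ - c₆'²) = j(s)`, of norm `‖s‖⁻¹`. -/
theorem t6_scaled {s lam c4' c6' : K} (hs0 : s ≠ 0) (hs1 : ‖s‖ < 1) (hlam : lam ≠ 0)
    (h1728 : (1728 : K) ≠ 0) (h4 : c4' = lam ^ 4 * ev s e4Z)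
    (h6 : c6' ^ 2 = lam ^ 12 * ev s e6Z ^ 2) :
    c4' ^ 3 - c6' ^ 2 ≠ 0 ∧ 1728 * c4' ^ 3 / (c4' ^ 3 - c6' ^ 2) = T6.jq s ∧
      ‖1728 * c4' ^ 3 / (c4' ^ 3 - c6' ^ 2)‖ = ‖s‖⁻¹ := by
  obtain ⟨hne, hj⟩ := T6.jVal_of_c4_c6 ((T6.evalFamily K).ev s)
    (T6.ev_X_ne_zero (T6.evalFamily K) hs0 hs1) hlam h1728 (c4' := c4') (c6' := c6')
    (by rw [T6.evalFamily_ev hs1]; exact h4) (by rw [T6.evalFamily_ev hs1]; exact h6)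
  have hj' : 1728 * c4' ^ 3 / (c4' ^ 3 - c6' ^ 2) = T6.jq s := by
    rw [hj]; exact T6.jK_evalFamily hs1
  exact ⟨hne, hj', by rw [hj', T6.norm_jq hs1]⟩

variable [CharZero K]

/-- **Vélu for the cyclic subgroup generated by `P(g)`** (`g` of exact order `n` modulo `q^ℤ`),
binder-free, in `Velu`/`T6` vocabulary: the quotient has `j`-invariant `jq s`, `s^M = q^N`,
`N M = n`, `N = gcd(e, n)` for `g^n = q^e`. -/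
theorem velu_cyclic_ev {q g : K} {n : ℕ} (hq0 : q ≠ 0) (hq1 : ‖q‖ < 1) (hn : 0 < n)
    (hg0 : g ≠ 0) (hord : ∀ k : ℤ, (∃ m : ℤ, g ^ k = q ^ m) ↔ (n : ℤ) ∣ k) :
    ∃ (N M : ℕ) (s : K), N * M = n ∧ 0 < N ∧ 0 < M ∧ s ≠ 0 ∧ ‖s‖ < 1 ∧ s ^ M = q ^ N ∧
      (∀ e' : ℤ, g ^ n = q ^ e' → N = Int.gcd e' n) ∧
      Velu.veluC4 (tateCurve q) n (fun k => X q (g ^ k)) = (N : K) ^ 4 * ev s e4Z ∧
      Velu.veluC6 (tateCurve q) n (fun k => X q (g ^ k)) = -((N : K) ^ 6 * ev s e6Z) ∧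
      Velu.veluC6 (tateCurve q) n (fun k => X q (g ^ k)) ^ 2 = (N : K) ^ 12 * ev s e6Z ^ 2 ∧
      Velu.veluC4 (tateCurve q) n (fun k => X q (g ^ k)) ^ 3
        - Velu.veluC6 (tateCurve q) n (fun k => X q (g ^ k)) ^ 2 ≠ 0 ∧
      1728 * Velu.veluC4 (tateCurve q) n (fun k => X q (g ^ k)) ^ 3 /
        (Velu.veluC4 (tateCurve q) n (fun k => X q (g ^ k)) ^ 3
          - Velu.veluC6 (tateCurve q) n (fun k => X q (g ^ k)) ^ 2) = T6.jq s := by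
  obtain ⟨N, M, s, hNM, hN, hM, hs0, hs1, hsM, hgcd, h4, h6⟩ :=
    velu_cyclic hq0 hq1 hn hg0 hord (WeqD.i2 hq0 hq1) (WeqD.i4 hq0 hq1 (by norm_num))
  rw [veluC4F_eq_cov] at h4
  rw [veluC6F_eq_cov] at h6
  have h4' : Velu.veluC4 (tateCurve q) n (fun k => X q (g ^ k)) = (N : K) ^ 4 * ev s e4Z := by
    rw [h4, ev_e4Z_eq hs1]
  have h6' : Velu.veluC6 (tateCurve q) n (fun k => X q (g ^ k)) = -((N : K) ^ 6 * ev s e6Z) := by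
    rw [h6, ev_e6Z_eq hs1]
  have h6'' : Velu.veluC6 (tateCurve q) n (fun k => X q (g ^ k)) ^ 2
      = (N : K) ^ 12 * ev s e6Z ^ 2 := by
    rw [h6']; ring
  have hN0 : (N : K) ≠ 0 := by exact_mod_cast hN.ne'
  obtain ⟨hne, hj, _⟩ := t6_scaled hs0 hs1 hN0 (by norm_num) h4' h6''
  exact ⟨N, M, s, hNM, hN, hM, hs0, hs1, hsM, hgcd, h4', h6', h6'', hne, hj⟩

/-- **Vélu in the coordinates [MIX]**, binder-free, in `Velu`/`T6` vocabulary: for `g = ζ t^e`,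
`t^p = q`, `p ∤ e`, `ζ` a primitive `p^(k+1)`-th root of unity, the quotient of `E_q` by
`⟨P(g)⟩` has `j`-invariant `jq s` with `s^p = q^{p^k}` (so `‖j'‖^p = ‖jq q‖^{p^k}`). -/
theorem velu_mix_ev {q t ζ : K} {p k : ℕ} (hp : p.Prime) (hq0 : q ≠ 0) (hq1 : ‖q‖ < 1)
    (ht : t ^ p = q) (hζ : IsPrimitiveRoot ζ (p ^ (k + 1))) {e : ℕ} (he : ¬ p ∣ e) :
    ∃ s : K, s ≠ 0 ∧ ‖s‖ < 1 ∧ s ^ p = q ^ (p ^ k) ∧
      Velu.veluC4 (tateCurve q) (p ^ (k + 1)) (fun i => X q ((ζ * t ^ e) ^ i))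
        = ((p ^ k : ℕ) : K) ^ 4 * ev s e4Z ∧
      Velu.veluC6 (tateCurve q) (p ^ (k + 1)) (fun i => X q ((ζ * t ^ e) ^ i)) ^ 2
        = ((p ^ k : ℕ) : K) ^ 12 * ev s e6Z ^ 2 ∧
      Velu.veluC4 (tateCurve q) (p ^ (k + 1)) (fun i => X q ((ζ * t ^ e) ^ i)) ^ 3
        - Velu.veluC6 (tateCurve q) (p ^ (k + 1)) (fun i => X q ((ζ * t ^ e) ^ i)) ^ 2 ≠ 0 ∧
      1728 * Velu.veluC4 (tateCurve q) (p ^ (k + 1)) (fun i => X q ((ζ * t ^ e) ^ i)) ^ 3 /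
        (Velu.veluC4 (tateCurve q) (p ^ (k + 1)) (fun i => X q ((ζ * t ^ e) ^ i)) ^ 3
          - Velu.veluC6 (tateCurve q) (p ^ (k + 1)) (fun i => X q ((ζ * t ^ e) ^ i)) ^ 2)
        = T6.jq s ∧
      ‖T6.jq s‖ ^ p = ‖T6.jq q‖ ^ (p ^ k) := by
  obtain ⟨s, hs0, hs1, hsp, h4, h6⟩ :=
    velu_mix hp hq0 hq1 ht hζ he (WeqD.i2 hq0 hq1) (WeqD.i4 hq0 hq1 (by norm_num))
  rw [veluC4F_eq_cov] at h4
  rw [veluC6F_eq_cov] at h6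
  have h4' : Velu.veluC4 (tateCurve q) (p ^ (k + 1)) (fun i => X q ((ζ * t ^ e) ^ i))
      = ((p ^ k : ℕ) : K) ^ 4 * ev s e4Z := by
    rw [h4, ev_e4Z_eq hs1]
  have h6'' : Velu.veluC6 (tateCurve q) (p ^ (k + 1)) (fun i => X q ((ζ * t ^ e) ^ i)) ^ 2
      = ((p ^ k : ℕ) : K) ^ 12 * ev s e6Z ^ 2 := by
    rw [h6, ev_e6Z_eq hs1]; ring
  have hN0 : ((p ^ k : ℕ) : K) ≠ 0 := by exact_mod_cast (pow_pos hp.pos k).ne'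
  obtain ⟨hne, hj, _⟩ := t6_scaled hs0 hs1 hN0 (by norm_num) h4' h6''
  refine ⟨s, hs0, hs1, hsp, h4', h6'', hne, hj, ?_⟩
  rw [T6.norm_jq hs1, T6.norm_jq hq1, inv_pow, inv_pow, ← norm_pow, ← norm_pow, hsp]

end Fermat.Agent.GZ.Tate.T5
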