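/-
GATE-Z / CELL-M3 (S12), Tate side (VELU-MIX, helper37), part 4: the INTRINSIC reading of `(N, M)` in
`velu_cyclic`: for `g` of exact order `n = N M` modulo `q^ℤ`,

  `g^i` is a unit modulo `q^ℤ` (`∃ m, ‖q^m g^i‖ = 1`, i.e. `i • P(g)` lies in the zero component,
  T4)  `↔  M ∣ i`,

so `M` is the order of `P(g)` in `E_q/E_q⁰` and `N = n/M = #(⟨P(g)⟩ ∩ E_q⁰)`:
`g` unit ⟹ `(N, M) = (n, 1)` [CAN]; `n = p^(k+1)`, `g` not a unit but `g^p` a unit ⟹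
`(N, M) = (p^k, p)` [MIX].  No coordinates `ζ^b t^e` are needed.

* `velu_cyclic_unit_ev` : `velu_cyclic_ev` + the unit criterion;
* `velu_can_ev`, `velu_mix_unit_ev` : the two cases for `n = p^(k+1)`.
-/
import Mathlib
import Fermat.Agent.GZ.Tate.T5.MixedBridge

set_option autoImplicit false

noncomputable section

open Finset

namespace Fermat.Agent.GZ.Tate.T5

open Fermat.Agent.GZ.Tate Fermat.Agent.GZ.Tate.T0 Fermat.Agent.S16.L1h67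

variable {K : Type*} [NormedField K]

/-- in the coordinates of `exists_mixed_coords`, the exponent `e` of `h` in `g` is prime to `M`. -/
theorem coprime_of_mixed_coords {q ζ h g : K} {N M : ℕ} (hζN : ζ ^ N = 1)
    (hN : 0 < N) (hM : 0 < M) (a : ℤ) (hq : q = ζ ^ a * h ^ M) (y e : ℤ)
    (hg : g = ζ ^ y * h ^ e)
    (hord : ∀ k : ℤ, (∃ m : ℤ, g ^ k = q ^ m) → ((N * M : ℕ) : ℤ) ∣ k) :
    Int.gcd e (M : ℤ) = 1 := by
  have hζ0 : ζ ≠ 0 := by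
    intro h0
    rw [h0, zero_pow hN.ne'] at hζN
    exact zero_ne_one hζN
  set d : ℕ := Int.gcd e (M : ℤ) with hd
  have hM0 : (M : ℤ) ≠ 0 := by exact_mod_cast hM.ne'
  have hdpos : 0 < d := Int.gcd_pos_of_ne_zero_right _ hM0
  obtain ⟨e', he'⟩ : (d : ℤ) ∣ e := Int.gcd_dvd_left _ _
  obtain ⟨M', hM'⟩ : (d : ℤ) ∣ (M : ℤ) := Int.gcd_dvd_right _ _
  -- `g^(N M') = q^(N e')`
  have hζpow : ∀ z : ℤ, ζ ^ ((N : ℤ) * z) = 1 := fun z => by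
    rw [zpow_mul, zpow_natCast, hζN, one_zpow]
  have hhM : h ^ (M : ℤ) = ζ ^ (-a) * q := by
    rw [hq, ← mul_assoc, ← zpow_add₀ hζ0, neg_add_cancel, zpow_zero, one_mul, zpow_natCast]
  have key : g ^ ((N : ℤ) * M') = q ^ ((N : ℤ) * e') := by
    have h1 : e * ((N : ℤ) * M') = (M : ℤ) * ((N : ℤ) * e') := by
      rw [he', hM']; ring
    have h2 : y * ((N : ℤ) * M') = (N : ℤ) * (y * M') := by ring
    have h3 : -a * ((N : ℤ) * e') = (N : ℤ) * (-a * e') := by ring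
    have e1 : (ζ ^ y) ^ ((N : ℤ) * M') = 1 := by rw [← zpow_mul, h2, hζpow]
    have e2 : (h ^ e) ^ ((N : ℤ) * M') = q ^ ((N : ℤ) * e') := by
      rw [← zpow_mul, h1, zpow_mul, hhM, mul_zpow, ← zpow_mul, h3, hζpow, one_mul]
    rw [hg, mul_zpow, e1, e2, one_mul]
  have hdvd := hord _ ⟨_, key⟩
  -- `N M ∣ N M'` with `M = d M'` forces `d = 1`
  have hN0 : (N : ℤ) ≠ 0 := by exact_mod_cast hN.ne'
  have h4 : ((N * M : ℕ) : ℤ) = (N : ℤ) * ((d : ℤ) * M') := by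
    push_cast; rw [hM']
  rw [h4] at hdvd
  have h5 : (d : ℤ) * M' ∣ M' := (mul_dvd_mul_iff_left hN0).1 hdvd
  have hM'0 : M' ≠ 0 := by
    rintro rfl
    rw [mul_zero] at hM'
    exact hM0 hM'
  have h6 : (d : ℤ) * M' ∣ 1 * M' := by rwa [one_mul]
  have h7 : (d : ℤ) ∣ 1 := (mul_dvd_mul_iff_right hM'0).1 h6
  have h8 : d ∣ 1 := Int.natCast_dvd_natCast.1 (by exact_mod_cast h7)
  exact Nat.dvd_one.1 h8

/-- **the unit criterion**: in the coordinates of `exists_mixed_coords`, `g^i` is a unit modulo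
`q^ℤ` iff `M ∣ i`. -/
theorem unit_iff_of_mixed_coords {q ζ h g : K} {N M : ℕ} (hζN : ζ ^ N = 1) (hN : 0 < N)
    (hh0 : h ≠ 0) (hh1 : ‖h‖ < 1) (a : ℤ) (hq : q = ζ ^ a * h ^ M) (y e : ℤ)
    (hg : g = ζ ^ y * h ^ e) (hcop : Int.gcd e (M : ℤ) = 1) (i : ℤ) :
    (∃ m : ℤ, ‖q ^ m * g ^ i‖ = 1) ↔ (M : ℤ) ∣ i := by
  have hζ1 : ‖ζ‖ = 1 := by
    have h2 : ‖ζ‖ ^ N = 1 := by rw [← norm_pow, hζN, norm_one]
    exact (pow_eq_one_iff_of_nonneg (norm_nonneg _) hN.ne').1 h2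
  have hhn0 : ‖h‖ ≠ 0 := norm_ne_zero_iff.2 hh0
  have hqn : ‖q‖ = ‖h‖ ^ (M : ℤ) := by
    rw [hq, norm_mul, norm_zpow, hζ1, one_zpow, one_mul, norm_pow, zpow_natCast]
  have hgn : ‖g‖ = ‖h‖ ^ e := by
    rw [hg, norm_mul, norm_zpow, norm_zpow, hζ1, one_zpow, one_mul]
  have hnorm : ∀ m : ℤ, ‖q ^ m * g ^ i‖ = ‖h‖ ^ ((M : ℤ) * m + e * i) := fun m => by
    rw [norm_mul, norm_zpow, norm_zpow, hqn, hgn, ← zpow_mul, ← zpow_mul, ← zpow_add₀ hhn0]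
  constructor
  · rintro ⟨m, hm⟩
    rw [hnorm] at hm
    have h3 := (zpow_eq_one_iff_right₀ (norm_nonneg h) hh1.ne).1 hm
    have h4 : (M : ℤ) ∣ e * i := ⟨-m, by linear_combination h3⟩
    have hcop' : IsCoprime (M : ℤ) e := by
      rw [Int.isCoprime_iff_gcd_eq_one, Int.gcd_comm]; exact hcop
    exact hcop'.dvd_of_dvd_mul_left h4
  · rintro ⟨i', rfl⟩
    refine ⟨-(e * i'), ?_⟩
    rw [hnorm]
    have : (M : ℤ) * -(e * i') + e * ((M : ℤ) * i') = 0 := by ring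
    rw [this, zpow_zero]

variable [IsUltrametricDist K] [CompleteSpace K] [CharZero K]

/-- **Vélu for the cyclic subgroup generated by `P(g)`** with the intrinsic reading of `M`:
`g^i` is a unit modulo `q^ℤ` iff `M ∣ i`. -/
theorem velu_cyclic_unit_ev {q g : K} {n : ℕ} (hq0 : q ≠ 0) (hq1 : ‖q‖ < 1) (hn : 0 < n)
    (hg0 : g ≠ 0) (hord : ∀ k : ℤ, (∃ m : ℤ, g ^ k = q ^ m) ↔ (n : ℤ) ∣ k) :
    ∃ (N M : ℕ) (s : K), N * M = n ∧ 0 < N ∧ 0 < M ∧ s ≠ 0 ∧ ‖s‖ < 1 ∧ s ^ M = q ^ N ∧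
      (∀ i : ℤ, (∃ m : ℤ, ‖q ^ m * g ^ i‖ = 1) ↔ (M : ℤ) ∣ i) ∧
      Velu.veluC4 (tateCurve q) n (fun k => X q (g ^ k)) = (N : K) ^ 4 * ev s e4Z ∧
      Velu.veluC6 (tateCurve q) n (fun k => X q (g ^ k)) = -((N : K) ^ 6 * ev s e6Z) ∧
      Velu.veluC6 (tateCurve q) n (fun k => X q (g ^ k)) ^ 2 = (N : K) ^ 12 * ev s e6Z ^ 2 ∧
      Velu.veluC4 (tateCurve q) n (fun k => X q (g ^ k)) ^ 3
        - Velu.veluC6 (tateCurve q) n (fun k => X q (g ^ k)) ^ 2 ≠ 0 ∧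
      1728 * Velu.veluC4 (tateCurve q) n (fun k => X q (g ^ k)) ^ 3 /
        (Velu.veluC4 (tateCurve q) n (fun k => X q (g ^ k)) ^ 3
          - Velu.veluC6 (tateCurve q) n (fun k => X q (g ^ k)) ^ 2) = T6.jq s := by
  obtain ⟨N, M, ζ, h, a, y, e, hNM, hN, hM, hζ, hh0, hh1, hq, hg, _⟩ :=
    exists_mixed_coords hq0 hq1 hn hg0 hord
  have hζN : ζ ^ N = 1 := hζ.pow_eq_one
  have hζ0 : ζ ≠ 0 := hζ.ne_zero hN.ne'
  have hord' : ∀ k : ℤ, (∃ m : ℤ, g ^ k = q ^ m) → ((N * M : ℕ) : ℤ) ∣ k := fun k hk => by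
    rw [hNM]; exact (hord k).1 hk
  have hcop := coprime_of_mixed_coords hζN hN hM a hq y e hg hord'
  have hunit := unit_iff_of_mixed_coords hζN hN hh0 hh1 a hq y e hg hcop
  have hs1 : ‖h ^ N‖ < 1 := by
    rw [norm_pow]; exact pow_lt_one₀ (norm_nonneg _) hh1 hN.ne'
  have hs0 : h ^ N ≠ 0 := pow_ne_zero N hh0
  have hsM : (h ^ N) ^ M = q ^ N := by
    have hhM : h ^ M = ζ ^ (-a) * q := by
      rw [hq, ← mul_assoc, ← zpow_add₀ hζ0, neg_add_cancel, zpow_zero, one_mul]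
    rw [← pow_mul, mul_comm N M, pow_mul, hhM, mul_pow, ← zpow_natCast (ζ ^ (-a)) N,
      ← zpow_mul, mul_comm (-a) (N : ℤ), zpow_mul, zpow_natCast, hζN, one_zpow, one_mul]
  have hperX : ∀ u : K, u ≠ 0 → X q (q * u) = X q u := fun u _ => by
    have := X_zpow_mul hq0 1 u
    rwa [zpow_one] at this
  have hm := velu_mixed hq0 hq1 hζ hN hM hh0 hh1 a hq (WeqD.i2 hq0 hq1)
    (WeqD.i4 hq0 hq1 (by norm_num))
  have h4 : Velu.veluC4 (tateCurve q) n (fun k => X q (g ^ k))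
      = (N : K) ^ 4 * ev (h ^ N) e4Z := by
    rw [← veluC4F_eq_cov, ev_e4Z_eq hs1, ← hm.1]
    unfold veluC4F
    subst hNM
    rw [sum_Ico_cyclic (fun u => veluT (tateCurve q) (X q u)) hq0 hζN hN hM hh0 a hq y e hg
      (fun u hu => by simp only [hperX u hu]) hord']
  have h6 : Velu.veluC6 (tateCurve q) n (fun k => X q (g ^ k))
      = -((N : K) ^ 6 * ev (h ^ N) e6Z) := by
    rw [← veluC6F_eq_cov, ev_e6Z_eq hs1, ← hm.2]
    unfold veluC6F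
    subst hNM
    rw [sum_Ico_cyclic (fun u => (tateCurve q).b₂ * veluT (tateCurve q) (X q u)
      + 12 * veluW (tateCurve q) (X q u)) hq0 hζN hN hM hh0 a hq y e hg
      (fun u hu => by simp only [hperX u hu]) hord']
  have h6' : Velu.veluC6 (tateCurve q) n (fun k => X q (g ^ k)) ^ 2
      = (N : K) ^ 12 * ev (h ^ N) e6Z ^ 2 := by
    rw [h6]; ring
  have hN0 : (N : K) ≠ 0 := by exact_mod_cast hN.ne'
  obtain ⟨hne, hj, _⟩ := t6_scaled hs0 hs1 hN0 (by norm_num) h4 h6'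
  exact ⟨N, M, h ^ N, hNM, hN, hM, hs0, hs1, hsM, hunit, h4, h6, h6', hne, hj⟩

/-- **[CAN], any `n`**: if the generator `g` (exact order `n` modulo `q^ℤ`) is a unit modulo
`q^ℤ`, the quotient of `E_q` by `⟨P(g)⟩` is `E_{q^n}`: `c₄' = n⁴ E₄(q^n)`, `j' = jq (q^n)`. -/
theorem velu_can_ev {q g : K} {n : ℕ} (hq0 : q ≠ 0) (hq1 : ‖q‖ < 1) (hn : 0 < n)
    (hg0 : g ≠ 0) (hord : ∀ k : ℤ, (∃ m : ℤ, g ^ k = q ^ m) ↔ (n : ℤ) ∣ k)
    (hunit : ∃ m : ℤ, ‖q ^ m * g‖ = 1) :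
    Velu.veluC4 (tateCurve q) n (fun k => X q (g ^ k)) = (n : K) ^ 4 * ev (q ^ n) e4Z ∧
      Velu.veluC6 (tateCurve q) n (fun k => X q (g ^ k)) ^ 2
        = (n : K) ^ 12 * ev (q ^ n) e6Z ^ 2 ∧
      Velu.veluC4 (tateCurve q) n (fun k => X q (g ^ k)) ^ 3
        - Velu.veluC6 (tateCurve q) n (fun k => X q (g ^ k)) ^ 2 ≠ 0 ∧
      1728 * Velu.veluC4 (tateCurve q) n (fun k => X q (g ^ k)) ^ 3 /
        (Velu.veluC4 (tateCurve q) n (fun k => X q (g ^ k)) ^ 3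
          - Velu.veluC6 (tateCurve q) n (fun k => X q (g ^ k)) ^ 2) = T6.jq (q ^ n) := by
  obtain ⟨N, M, s, hNM, hN, hM, hs0, hs1, hsM, hu, h4, _, h6, hne, hj⟩ :=
    velu_cyclic_unit_ev hq0 hq1 hn hg0 hord
  have hM1 : M = 1 := by
    have h1 : (M : ℤ) ∣ 1 := (hu 1).1 (by simpa using hunit)
    have h2 : M ∣ 1 := Int.natCast_dvd_natCast.1 (by exact_mod_cast h1)
    exact Nat.dvd_one.1 h2
  subst hM1
  rw [mul_one] at hNM
  subst hNM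
  rw [pow_one] at hsM
  subst hsM
  exact ⟨h4, h6, hne, hj⟩

/-- **[MIX], `n = p^(k+1)`**: if the generator `g` (exact order `p^(k+1)` modulo `q^ℤ`) is not a
unit modulo `q^ℤ` but `g^p` is, the quotient of `E_q` by `⟨P(g)⟩` is `E_s` with `s^p = q^(p^k)`:
`c₄' = p^(4k) E₄(s)`, `j' = jq s`, `‖jq s‖^p = ‖jq q‖^(p^k)`. -/
theorem velu_mix_unit_ev {q g : K} {p k : ℕ} (hp : p.Prime) (hq0 : q ≠ 0) (hq1 : ‖q‖ < 1)
    (hg0 : g ≠ 0)
    (hord : ∀ z : ℤ, (∃ m : ℤ, g ^ z = q ^ m) ↔ ((p ^ (k + 1) : ℕ) : ℤ) ∣ z)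
    (hnot : ¬ ∃ m : ℤ, ‖q ^ m * g‖ = 1) (hunit : ∃ m : ℤ, ‖q ^ m * g ^ p‖ = 1) :
    ∃ s : K, s ≠ 0 ∧ ‖s‖ < 1 ∧ s ^ p = q ^ (p ^ k) ∧
      Velu.veluC4 (tateCurve q) (p ^ (k + 1)) (fun i => X q (g ^ i))
        = ((p ^ k : ℕ) : K) ^ 4 * ev s e4Z ∧
      Velu.veluC6 (tateCurve q) (p ^ (k + 1)) (fun i => X q (g ^ i)) ^ 2
        = ((p ^ k : ℕ) : K) ^ 12 * ev s e6Z ^ 2 ∧
      Velu.veluC4 (tateCurve q) (p ^ (k + 1)) (fun i => X q (g ^ i)) ^ 3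
        - Velu.veluC6 (tateCurve q) (p ^ (k + 1)) (fun i => X q (g ^ i)) ^ 2 ≠ 0 ∧
      1728 * Velu.veluC4 (tateCurve q) (p ^ (k + 1)) (fun i => X q (g ^ i)) ^ 3 /
        (Velu.veluC4 (tateCurve q) (p ^ (k + 1)) (fun i => X q (g ^ i)) ^ 3
          - Velu.veluC6 (tateCurve q) (p ^ (k + 1)) (fun i => X q (g ^ i)) ^ 2) = T6.jq s ∧
      ‖T6.jq s‖ ^ p = ‖T6.jq q‖ ^ (p ^ k) := by
  obtain ⟨N, M, s, hNM, hN, hM, hs0, hs1, hsM, hu, h4, _, h6, hne, hj⟩ :=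
    velu_cyclic_unit_ev hq0 hq1 (pow_pos hp.pos (k + 1)) hg0 hord
  have hMp : M = p := by
    have h1 : (M : ℤ) ∣ (p : ℤ) := (hu p).1 (by simpa using hunit)
    have h2 : M ∣ p := Int.natCast_dvd_natCast.1 h1
    rcases (Nat.dvd_prime hp).1 h2 with h3 | h3
    · exfalso
      apply hnot
      have := (hu 1).2 (by rw [h3]; simp)
      simpa using this
    · exact h3
  rw [hMp] at hNM hsM
  have hNk : N = p ^ k := by
    have h1 : N * p = p ^ k * p := by rw [hNM, pow_succ]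
    exact Nat.eq_of_mul_eq_mul_right hp.pos h1
  rw [hNk] at h4 h6 hsM
  refine ⟨s, hs0, hs1, hsM, h4, h6, hne, hj, ?_⟩
  rw [T6.norm_jq hs1, T6.norm_jq hq1, inv_pow, inv_pow, ← norm_pow, ← norm_pow, hsM]

end Fermat.Agent.GZ.Tate.T5
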